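/-
S27 (row 26), char-p half (planner helper62): the CONCRETE leaves (function fields over an
algebraic closure `k` of `𝔽_p`).  Plan: NOTES/plan/S27_CHARP.md.
Target of the half: `Char0.Stmt_CountPu` (S27/Char0/Defs.lean, helper20).

Route: a Frobenius structure `φ` on `F / k` (FROB-EX) acts on places, divisors, `L(D)`, `Pic⁰`
(prelude `SemilinearAut`).  PHI-ORB, CNT (= H90A + H90B + DESC-L), L-INV and Riemann–Roch
(helper52, `S27/RR/H52_RR.lean`) make `(Place k F, φ, principal, l)` an abstract zeta system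
`Zeta.ZSys` (leaf SYS); `Zeta.Stmt_Z_Main` (S27/Zeta/Defs.lean) then counts the torsion.

This file contains definitions and `Stmt_*` (all `Prop`s), no `sorry`.  Owners prove the leaves in
`Fermat/Agent/S27/CharP/H<seat>_<Name>.lean`, namespace `Fermat.Agent.S27.CharP.H<seat>`.
-/
import Fermat.Agent.RED.H17_FF
import Fermat.Agent.S27.Zeta.Defs
import Fermat.Prelude.Def_AlgebraicCurve_BaseChangeGalois

set_option autoImplicit false

noncomputable section

open AlgebraicCurve IntermediateField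

namespace Fermat.Agent.S27.CharP

open Fermat.Agent.RED.H17

universe u v

local notation "L" => riemannRochSpace

/-- A **Frobenius structure** on `F / k` for the prime `p` and `Q = p^a`: a semilinear automorphism
`φ` of `F` which is `a ↦ a^Q` on `k` and has finite orbits on `F`
(`F = F₀ ⊗_{𝔽_Q} k`, `φ = id ⊗ Frob_Q`; `F^φ = F₀`). -/
structure IsFrob {k : Type u} {F : Type v} [Field k] [Field F] [Algebra k F]
    (p Q : ℕ) (φ : SemilinearAut k F) : Prop where
  pow : ∃ a : ℕ, 0 < a ∧ Q = p ^ a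
  base : ∀ a : k, SemilinearAut.baseAut φ a = a ^ Q
  orbit : ∀ x : F, ∃ n : ℕ, 0 < n ∧ (φ ^ n) • x = x

/-- **FROB-EX** (field theory): a function field over an algebraic closure of `𝔽_p` has a
Frobenius structure.
(`F = k(x, y₁..y_r)`; the coefficients of the relations lie in a finite field `𝔽_q ⊂ k`;
`F₀ := 𝔽_q(x, y₁..y_r)`, `k₀ := F₀ ∩ k` is finite (`F₀` is finitely generated), `F = F₀ k` is
Galois over `F₀`, and restriction `Aut(F/F₀) → Aut(k/k₀)` is onto at every finite level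
`F₀ 𝔽_{Q^n}`, `Q = #k₀`: glue the automorphisms of the finite levels restricting to `Frob_Q`.) -/
def Stmt_FrobEx : Prop :=
  ∀ (k : Type u) (F : Type v) [Field k] [Field F] [Algebra k F] [IsAlgClosed k]
    (p : ℕ) [CharP k p], p.Prime → (∀ a : k, ∃ n : ℕ, 0 < n ∧ a ^ (p ^ n) = a) →
    (∃ x : F, Transcendental k x ∧ Module.Finite k⟮x⟯ F) →
    ∃ (Q : ℕ) (φ : SemilinearAut k F), IsFrob p Q φ

/-- **PHI-ORB**: every place has a finite `φ`-orbit, and every power of `φ` fixes only finitely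
many places.
(Take `x ∈ F` transcendental and `n` with `φ^n x = x`.  A place `P` is a pole of `x` or a zero of
`x - a`, `a ∈ k`; `φ^(n j)` with `a^(Q^(n j)) = a` permutes the finitely many zeros of `x - a`
(poles of `x`).  If `φ^m P = P` then `φ^(m n) P = P` is a zero of `x - a` and of
`x - a^(Q^(m n))`, so `a` is among the `Q^(m n)` roots of `T^(Q^(m n)) = T`.) -/
def Stmt_PhiOrb : Prop :=
  ∀ (k : Type u) (F : Type v) [Field k] [Field F] [Algebra k F] [IsAlgClosed k]
    (p : ℕ) [CharP k p], p.Prime → FFHyp k F →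
    ∀ (Q : ℕ) (φ : SemilinearAut k F), IsFrob p Q φ →
      (∀ P : Place k F, ∃ m : ℕ, 0 < m ∧ (φ ^ m) • P = P) ∧
      (∀ m : ℕ, 0 < m → {P : Place k F | (φ ^ m) • P = P}.Finite)

/-- **L-INV**: `l(φ D) = l(D)` for a semilinear automorphism (`f ↦ φ f` is a semilinear
bijection `L(D) → L(φ D)`; it maps a basis to a basis). -/
def Stmt_LInv : Prop :=
  ∀ (k : Type u) (F : Type v) [Field k] [Field F] [Algebra k F]
    (φ : SemilinearAut k F) (D : Divisor k F),
    Module.finrank k (L (φ • D)) = Module.finrank k (L D)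

/-- **H90A**: an invariant divisor class contains an invariant divisor.
(`φ D - D = div f`; `φ^n D = D` and `φ^n f = f` for some `n` (PHI-ORB), so
`N f = ∏_{i<n} φ^i f` has divisor `0`, `N f = a ∈ kˣ`; replace `f` by `c f` with `N c = a⁻¹`
(`k` algebraically closed); Hilbert 90: `h := ∑_{i<n} (∏_{j<i} φ^j f) φ^i θ ≠ 0` for some
`θ ∈ k` with `φ^n θ = θ` (independence of the characters `φ^i` on `𝔽_{Q^n}`), and
`f φ(h) = h`; `D₁ := D + div h`.) -/
def Stmt_H90A : Prop :=
  ∀ (k : Type u) (F : Type v) [Field k] [Field F] [Algebra k F] [IsAlgClosed k]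
    (p : ℕ) [CharP k p], p.Prime → FFHyp k F →
    ∀ (Q : ℕ) (φ : SemilinearAut k F), IsFrob p Q φ →
    ∀ D : Divisor k F, φ • D - D ∈ Divisor.principal (K := k) (F := F) →
      ∃ D₁ : Divisor k F, φ • D₁ = D₁ ∧ D₁ - D ∈ Divisor.principal (K := k) (F := F)

/-- **H90B**: a function with `φ`-invariant divisor is a constant times a `φ`-invariant function.
(`φ f / f` has no zeros and poles, so `φ f = a f`, `a ∈ kˣ`; take `c` with `c^(Q-1) = a⁻¹`.) -/
def Stmt_H90B : Prop :=
  ∀ (k : Type u) (F : Type v) [Field k] [Field F] [Algebra k F] [IsAlgClosed k]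
    (p : ℕ) [CharP k p], p.Prime → FFHyp k F →
    ∀ (Q : ℕ) (φ : SemilinearAut k F), IsFrob p Q φ →
    ∀ f : F, f ≠ 0 → (∀ v : Place k F, v.ord (φ • f) = v.ord f) →
      ∃ c : k, c ≠ 0 ∧ φ • (algebraMap k F c * f) = algebraMap k F c * f

/-- **DESC-L** (Galois descent for a semilinear bijection with finite orbits): for a
`φ`-invariant divisor `D`, `L(D)` has exactly `Q^(l(D))` `φ`-invariant elements.
(`V = L(D)` is stable under `φ`; `V^φ` is an `𝔽_Q`-vector space, `𝔽_Q = k^φ`;
`V^φ ⊗_{𝔽_Q} k → V` is injective (Artin) and onto: for `v` with `φ^n v = v` the vectors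
`∑_{i<n} φ^i(a v)`, `a ∈ 𝔽_{Q^n}`, are invariant and span `v` (the matrix `(φ^i a_j)` is
invertible).) -/
def Stmt_DescL : Prop :=
  ∀ (k : Type u) (F : Type v) [Field k] [Field F] [Algebra k F] [IsAlgClosed k]
    (p : ℕ) [CharP k p], p.Prime → FFHyp k F →
    ∀ (Q : ℕ) (φ : SemilinearAut k F), IsFrob p Q φ →
    ∀ D : Divisor k F, φ • D = D →
      Nat.card {f : F // f ∈ L D ∧ φ • f = f} = Q ^ Module.finrank k (L D)

/-- **CNT** (the counting axiom; assembly of H90A, H90B, DESC-L): an invariant class `[D]`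
contains exactly `(Q^(l(D)) - 1)/(Q - 1)` invariant effective divisors.
(By H90A and `l(D + div h) = l(D)` we may take `D` invariant; `E = D + div f`, `f ∈ L(D) ∖ 0`
with `div f` invariant; by H90B `f` is unique up to `kˣ` and can be taken `φ`-invariant, then
unique up to `𝔽_Qˣ`; `#𝔽_Qˣ = Q - 1` as `T^Q - T` is separable.) -/
def Stmt_Cnt : Prop :=
  ∀ (k : Type u) (F : Type v) [Field k] [Field F] [Algebra k F] [IsAlgClosed k]
    (p : ℕ) [CharP k p], p.Prime → FFHyp k F →
    ∀ (Q : ℕ) (φ : SemilinearAut k F), IsFrob p Q φ →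
    ∀ D : Divisor k F, φ • D - D ∈ Divisor.principal (K := k) (F := F) →
      Nat.card {E : Divisor k F // 0 ≤ E ∧ φ • E = E ∧
          E - D ∈ Divisor.principal (K := k) (F := F)} * (Q - 1)
        = Q ^ Module.finrank k (L D) - 1

/-- **SYS** (assembly): the zeta system of a Frobenius structure with a fixed place.
Inputs: PHI-ORB, CNT for all powers `φ^m` (`IsFrob p (Q^m) (φ^m)`), L-INV, Riemann–Roch
(`RR.H52.riemann_roch`), and the basic facts of `FFHyp` (`l(0) = 1`, `L(D) = 0` for `deg D < 0`,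
`deg(div f) = 0`, `l(D + div h) = l(D)`). -/
def Stmt_Sys : Prop :=
  ∀ (k : Type u) (F : Type v) [Field k] [Field F] [Algebra k F] [IsAlgClosed k]
    (p : ℕ) [CharP k p], p.Prime → FFHyp k F → ∀ (g : ℕ) (c : ℤ), IsGenus k F g c →
    ∀ (Q : ℕ) (φ : SemilinearAut k F), IsFrob p Q φ → (∃ P₀ : Place k F, φ • P₀ = P₀) →
      ∃ S : Zeta.ZSys (Place k F),
        S.φ = MulAction.toPerm φ ∧ S.degree = Divisor.degree ∧
        S.Princ = Divisor.principal (K := k) (F := F) ∧ S.Q = Q ∧ S.g = g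

/-- **COUNT-P, with `FFHyp` as a hypothesis** (assembly: FROB-EX, PHI-ORB to get a fixed place of
a power of `φ`, SYS, `Zeta.Stmt_Z_Main`; `S.Cl0 = Pic0 k F` by the three equations of SYS).
`Char0.Stmt_CountPu` follows with `Char0.Stmt_FFH`. -/
def Stmt_CountP : Prop :=
  ∀ (k : Type u) (F : Type v) [Field k] [Field F] [Algebra k F] [IsAlgClosed k]
    (p : ℕ) [CharP k p], p.Prime → (∀ a : k, ∃ n : ℕ, 0 < n ∧ a ^ (p ^ n) = a) →
    (∃ x : F, Transcendental k x ∧ Module.Finite k⟮x⟯ F) → FFHyp k F →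
    ∀ (g : ℕ) (c : ℤ), IsGenus k F g c →
    ∀ ℓ : ℕ, ℓ.Prime → ℓ ≠ p → ∀ j : ℕ,
      Nat.card (Pic0.torsion k F (ℓ ^ j)) = ℓ ^ (2 * g * j)

end Fermat.Agent.S27.CharP
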