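/-
S27 (row 26), char-p half (planner helper62), leaf PHI-ORB (helper38):
`stmt_PhiOrb : Stmt_PhiOrb`, and basic facts on Frobenius structures.

* `baseAut_pow_apply`, `smul_pow_algebraMap` : `φ ^ n` is `a ↦ a ^ (Q ^ n)` on the constants;
* `isFrob_pow` : `φ ^ m` is a Frobenius structure for `Q ^ m`;
* `exists_pow_smul_place_eq` : every place has a finite orbit (a uniformiser `y` at `P` is fixed by
  some `ψ = φ ^ n`, and `ψ` permutes the finitely many zeros of `y`);
* `exists_pow_smul_divisor_eq` : every divisor is fixed by a power of `φ`;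
* `finite_fixed_places` : a power of `φ` fixes finitely many places.
-/
import Fermat.Agent.S27.CharP.Defs

set_option autoImplicit false
set_option linter.style.haveILetI false

noncomputable section

open AlgebraicCurve Polynomial

attribute [local instance] Classical.propDecidable

namespace Fermat.Agent.S27.CharP.H38

open Fermat.Agent.RED.H17 Fermat.Agent.RED Fermat.Agent.S27.CharP

universe u v

section Basic

variable {k : Type u} {F : Type v} [Field k] [Field F] [Algebra k F]
  {p Q : ℕ} {φ : SemilinearAut k F}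

/-- `φ ^ n` is `a ↦ a ^ (Q ^ n)` on the constants. -/
theorem baseAut_pow_apply (hφ : IsFrob p Q φ) (n : ℕ) (a : k) :
    SemilinearAut.baseAut (φ ^ n) a = a ^ (Q ^ n) := by
  induction n generalizing a with
  | zero => simp
  | succ n ih =>
    rw [pow_succ, SemilinearAut.baseAut_mul, RingAut.mul_apply, hφ.base, ih, ← pow_mul,
      pow_succ, mul_comm]

theorem smul_pow_algebraMap (hφ : IsFrob p Q φ) (n : ℕ) (a : k) :
    (φ ^ n) • algebraMap k F a = algebraMap k F (a ^ (Q ^ n)) := by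
  rw [SemilinearAut.smul_algebraMap, baseAut_pow_apply hφ]

theorem two_le_Q (hp : p.Prime) (hφ : IsFrob p Q φ) : 2 ≤ Q := by
  obtain ⟨a, ha, rfl⟩ := hφ.pow
  calc 2 ≤ p := hp.two_le
    _ = p ^ 1 := (pow_one p).symm
    _ ≤ p ^ a := Nat.pow_le_pow_right hp.pos ha

/-- If `ψ x = x` then `ψ ^ j x = x`. -/
theorem pow_smul_eq_of_smul_eq {X : Type*} [MulAction (SemilinearAut k F) X]
    {ψ : SemilinearAut k F} {x : X} (h : ψ • x = x) (j : ℕ) : (ψ ^ j) • x = x := by
  induction j with
  | zero => simp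
  | succ j ih => rw [pow_succ, mul_smul, h, ih]

/-- The constants are fixed by a power of `φ`. -/
theorem exists_pow_eq (hφ : IsFrob p Q φ) (a : k) : ∃ n : ℕ, 0 < n ∧ a ^ (Q ^ n) = a := by
  obtain ⟨n, hn, h⟩ := hφ.orbit (algebraMap k F a)
  rw [smul_pow_algebraMap hφ] at h
  exact ⟨n, hn, (algebraMap k F).injective h⟩

/-- `φ ^ m` is a Frobenius structure for `Q ^ m`. -/
theorem isFrob_pow (hφ : IsFrob p Q φ) {m : ℕ} (hm : 0 < m) : IsFrob p (Q ^ m) (φ ^ m) := by
  refine ⟨?_, fun a => baseAut_pow_apply hφ m a, fun x => ?_⟩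
  · obtain ⟨a, ha, rfl⟩ := hφ.pow
    exact ⟨a * m, Nat.mul_pos ha hm, by rw [pow_mul]⟩
  · obtain ⟨n, hn, h⟩ := hφ.orbit x
    refine ⟨n, hn, ?_⟩
    rw [← pow_mul, mul_comm, pow_mul]
    exact pow_smul_eq_of_smul_eq h m

end Basic

section Orbits

variable {k : Type u} {F : Type v} [Field k] [Field F] [Algebra k F]
  {p Q : ℕ} {φ : SemilinearAut k F}

/-- The places at which a non-zero function has a zero or a pole form a finite set. -/
theorem finite_ord_ne_zero (hP : HasPrincipalDivisors k F) {y : F} (hy : y ≠ 0) :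
    {v : Place k F | v.ord y ≠ 0}.Finite := by
  obtain ⟨D, hD, -⟩ := hP.exists_divisor y hy
  refine D.support.finite_toSet.subset fun v hv => ?_
  rw [Finset.mem_coe, Finsupp.mem_support_iff, hD v]
  exact hv

/-- **PHI-ORB, first half**: every place has a finite orbit. -/
theorem exists_pow_smul_place_eq (hP : HasPrincipalDivisors k F) (hφ : IsFrob p Q φ)
    (P : Place k F) : ∃ m : ℕ, 0 < m ∧ (φ ^ m) • P = P := by
  obtain ⟨π, hπ⟩ := IsDiscreteValuationRing.exists_irreducible P.toValuationSubring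
  have hord : P.ord (π : F) = 1 := P.ord_coe_irreducible hπ
  have hy0 : (π : F) ≠ 0 := by
    intro h0
    rw [h0, Place.ord_zero] at hord
    exact zero_ne_one hord
  obtain ⟨n, hn, hfix⟩ := hφ.orbit (π : F)
  set ψ : SemilinearAut k F := φ ^ n with hψ
  have hfin := finite_ord_ne_zero hP hy0
  -- `ψ` preserves the zero set
  have hmem : ∀ j : ℕ, (ψ ^ j) • P ∈ {v : Place k F | v.ord (π : F) ≠ 0} := by
    intro j
    have h1 : ((ψ ^ j) • P).ord ((ψ ^ j) • (π : F)) = P.ord (π : F) :=
      SemilinearAut.ord_smul (ψ ^ j) P (π : F)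
    rw [pow_smul_eq_of_smul_eq hfix j] at h1
    show ((ψ ^ j) • P).ord (π : F) ≠ 0
    rw [h1, hord]
    exact one_ne_zero
  haveI : Finite {v : Place k F | v.ord (π : F) ≠ 0} := hfin.to_subtype
  obtain ⟨i, j, hij, heq⟩ := Finite.exists_ne_map_eq_of_infinite
    (fun j : ℕ => (⟨(ψ ^ j) • P, hmem j⟩ : {v : Place k F | v.ord (π : F) ≠ 0}))
  have heq' : (ψ ^ i) • P = (ψ ^ j) • P := congrArg Subtype.val heq
  -- cancel
  have key : ∀ a b : ℕ, a < b → (ψ ^ a) • P = (ψ ^ b) • P → (ψ ^ (b - a)) • P = P := by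
    intro a b hab h
    have e : ψ ^ b = ψ ^ a * ψ ^ (b - a) := by
      rw [← pow_add, Nat.add_sub_cancel' hab.le]
    rw [e, mul_smul] at h
    exact (smul_left_cancel _ h).symm
  rcases Nat.lt_or_gt_of_ne hij with h | h
  · refine ⟨n * (j - i), Nat.mul_pos hn (Nat.sub_pos_of_lt h), ?_⟩
    rw [pow_mul]
    exact key i j h heq'
  · refine ⟨n * (i - j), Nat.mul_pos hn (Nat.sub_pos_of_lt h), ?_⟩
    rw [pow_mul]
    exact key j i h heq'.symm

/-- Every divisor is fixed by a power of `φ`. -/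
theorem exists_pow_smul_divisor_eq (hP : HasPrincipalDivisors k F) (hφ : IsFrob p Q φ)
    (D : Divisor k F) : ∃ m : ℕ, 0 < m ∧ (φ ^ m) • D = D := by
  induction D using Finsupp.induction with
  | zero => exact ⟨1, one_pos, smul_zero _⟩
  | single_add v c D _ _ ih =>
    obtain ⟨m₁, hm₁, h₁⟩ := ih
    obtain ⟨m₂, hm₂, h₂⟩ := exists_pow_smul_place_eq hP hφ v
    refine ⟨m₂ * m₁, Nat.mul_pos hm₂ hm₁, ?_⟩
    rw [smul_add, SemilinearAut.smul_single]
    congr 1
    · rw [pow_mul]
      rw [pow_smul_eq_of_smul_eq h₂ m₁]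
    · rw [mul_comm, pow_mul]
      exact pow_smul_eq_of_smul_eq h₁ m₂

/-- **PHI-ORB, second half**: a power of `φ` fixes finitely many places. -/
theorem finite_fixed_places (H : FFHyp k F) (hp : p.Prime) (hφ : IsFrob p Q φ) {m : ℕ}
    (hm : 0 < m) : {P : Place k F | (φ ^ m) • P = P}.Finite := by
  obtain ⟨x, hx⟩ := H.transc
  obtain ⟨n, hn, hfix⟩ := hφ.orbit x
  have hQ := two_le_Q hp hφ
  set q : ℕ := Q ^ (n * m) with hq
  have hq2 : 2 ≤ q := by
    have h1 : 0 < n * m := Nat.mul_pos hn hm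
    calc 2 ≤ Q := hQ
      _ = Q ^ 1 := (pow_one Q).symm
      _ ≤ Q ^ (n * m) := Nat.pow_le_pow_right (by omega) h1
  -- `x - a` is not zero
  have hxa : ∀ a : k, x - algebraMap k F a ≠ 0 := by
    intro a h0
    apply hx
    rw [sub_eq_zero] at h0
    rw [h0]
    exact isAlgebraic_algebraMap a
  have hx0 : x ≠ 0 := by
    have := hxa 0
    rwa [map_zero, sub_zero] at this
  -- the finite set of constants
  have hpoly : (X ^ q - X : k[X]) ≠ 0 := by
    intro h0
    have h1 := congrArg (fun f : k[X] => f.coeff 1) h0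
    have hq1 : ¬ (1 = q) := by omega
    simp only [coeff_sub, coeff_X_pow, if_neg hq1, coeff_X_one, coeff_zero, zero_sub,
      neg_eq_zero] at h1
    exact one_ne_zero h1
  have hE : {a : k | a ^ q = a}.Finite := by
    refine (Polynomial.finite_setOfPred_isRoot hpoly).subset fun a ha => ?_
    show IsRoot (X ^ q - X : k[X]) a
    rw [IsRoot.def, eval_sub, eval_pow, eval_X, sub_eq_zero]
    exact ha
  -- the finite set of places
  have hfinS : ({v : Place k F | v.ord x ≠ 0} ∪
      ⋃ a ∈ {a : k | a ^ q = a}, {v : Place k F | v.ord (x - algebraMap k F a) ≠ 0}).Finite :=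
    (finite_ord_ne_zero H.principal hx0).union
      (hE.biUnion fun a _ => finite_ord_ne_zero H.principal (hxa a))
  refine hfinS.subset fun P hP => ?_
  have hP' : (φ ^ m) • P = P := hP
  -- `ψ = φ ^ (n m)` fixes `x` and `P`
  have hψP : (φ ^ (n * m)) • P = P := by
    rw [mul_comm, pow_mul]
    exact pow_smul_eq_of_smul_eq hP' n
  have hψx : (φ ^ (n * m)) • x = x := by
    rw [pow_mul]
    exact pow_smul_eq_of_smul_eq hfix m
  by_cases hreg : 0 ≤ P.ord x
  · right
    obtain ⟨a, ha⟩ := exists_value P (H.deg_one P) (regAt_of_ord_nonneg hreg)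
    -- apply `ψ`
    have h1 : ((φ ^ (n * m)) • P).ord ((φ ^ (n * m)) • (x - algebraMap k F a)) =
        P.ord (x - algebraMap k F a) := SemilinearAut.ord_smul _ P _
    rw [hψP, smul_sub, hψx, smul_pow_algebraMap hφ] at h1
    have hpos : 0 < P.ord (x - algebraMap k F a) := ha.ord_pos (hxa a)
    have ha' : VanAt P (x - algebraMap k F (a ^ Q ^ (n * m))) :=
      vanAt_of_ord_pos (by rw [h1]; exact hpos)
    have haq : a ^ q = a := value_unique P ha' ha
    refine Set.mem_iUnion₂.2 ⟨a, haq, ?_⟩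
    show P.ord (x - algebraMap k F a) ≠ 0
    omega
  · left
    show P.ord x ≠ 0
    omega

end Orbits

/-- Leaf **PHI-ORB**. -/
theorem stmt_PhiOrb : Stmt_PhiOrb.{u, v} := by
  intro k F _ _ _ _ p _ hp H Q φ hφ
  exact ⟨fun P => exists_pow_smul_place_eq H.principal hφ P,
    fun m hm => finite_fixed_places H hp hφ hm⟩

end Fermat.Agent.S27.CharP.H38
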