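/-
S27 (row 26), char-p half (planner helper62), leaves H90A and H90B (helper38):
`stmt_H90A : Stmt_H90A`, `stmt_H90B : Stmt_H90B`.

H90B: `φ f / f` has no zeros and poles, so `φ f = a f`; take `c` with `c ^ (Q - 1) = a⁻¹`.

H90A: `φ D - D = div f`; `φ ^ n D = D` for some `n > 0` (PHI-ORB), so `N f = ∏_{i<n} φ^i f` has
divisor `0`, `N f = a ∈ kˣ`; replace `f` by `c f` with `N c = a⁻¹`.  Hilbert 90 by the resolvent:
`h = ∑_{i<n} (∏_{j<i} φ^j f) θ ^ (Q ^ i)` with `θ ^ (Q ^ n) = θ` satisfies `f φ(h) = h`, and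
`h ≠ 0` for some such `θ`, because the polynomial `∑_{i<n} b_i X ^ (Q ^ i)` (`b_0 = 1`) has at most
`Q ^ (n - 1)` roots, while `X ^ (Q ^ n) = X` has `Q ^ n` roots in `k`.  `D₁ := D + div h`.
-/
import Fermat.Agent.S27.CharP.H38_PhiOrb

set_option autoImplicit false
set_option linter.style.haveILetI false

noncomputable section

open AlgebraicCurve Polynomial

attribute [local instance] Classical.propDecidable

namespace Fermat.Agent.S27.CharP.H38

open Fermat.Agent.RED.H17 Fermat.Agent.RED Fermat.Agent.S27.CharP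

universe u v

/-! ### H90B -/

section H90B

variable {k : Type u} {F : Type v} [Field k] [Field F] [Algebra k F] [IsAlgClosed k]
  {p Q : ℕ} {φ : SemilinearAut k F}

omit [IsAlgClosed k] in
theorem smul_ne_zero' (ψ : SemilinearAut k F) {f : F} (hf : f ≠ 0) : ψ • f ≠ 0 := by
  rw [SemilinearAut.smul_def]
  exact (map_ne_zero_iff _ (SemilinearAut.toRingAut ψ).injective).mpr hf

omit [IsAlgClosed k] in
theorem ord_finprod {ι : Type*} (v : Place k F) (s : Finset ι) (f : ι → F)
    (hf : ∀ i ∈ s, f i ≠ 0) : v.ord (∏ i ∈ s, f i) = ∑ i ∈ s, v.ord (f i) := by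
  induction s using Finset.induction_on with
  | empty => simp
  | insert i s hi ih =>
    rw [Finset.prod_insert hi, Finset.sum_insert hi,
      v.ord_mul (hf i (Finset.mem_insert_self i s))
        (Finset.prod_ne_zero_iff.mpr fun j hj => hf j (Finset.mem_insert_of_mem hj)),
      ih fun j hj => hf j (Finset.mem_insert_of_mem hj)]

/-- **H90B**. -/
theorem h90B (H : FFHyp k F) (hp : p.Prime) (hφ : IsFrob p Q φ) {f : F} (hf : f ≠ 0)
    (hord : ∀ v : Place k F, v.ord (φ • f) = v.ord f) :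
    ∃ c : k, c ≠ 0 ∧ φ • (algebraMap k F c * f) = algebraMap k F c * f := by
  have hφf : φ • f ≠ 0 := smul_ne_zero' φ hf
  have hu : ∀ v : Place k F, 0 ≤ v.ord ((φ • f) / f) := by
    intro v
    rw [ord_div v hφf hf, hord v, sub_self]
  obtain ⟨a, ha⟩ := H.const_of_regular hu
  have ha0 : a ≠ 0 := by
    rintro rfl
    rw [map_zero] at ha
    exact div_ne_zero hφf hf ha
  have hφf' : φ • f = algebraMap k F a * f := by
    rw [← ha, div_mul_cancel₀ _ hf]
  have hQ := two_le_Q hp hφ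
  obtain ⟨c, hc⟩ := IsAlgClosed.exists_pow_nat_eq a⁻¹ (show 0 < Q - 1 by omega)
  have hc0 : c ≠ 0 := by
    rintro rfl
    rw [zero_pow (by omega)] at hc
    exact inv_ne_zero ha0 hc.symm
  refine ⟨c, hc0, ?_⟩
  have hcQ : c ^ Q * a = c := by
    have e : c ^ Q = c ^ (Q - 1) * c := by
      rw [← pow_succ]
      congr 1
      omega
    rw [e, hc, mul_comm a⁻¹ c, mul_assoc, inv_mul_cancel₀ ha0, mul_one]
  rw [smul_mul', SemilinearAut.smul_algebraMap, hφ.base, hφf', ← mul_assoc, ← map_mul, hcQ]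

end H90B

/-! ### The resolvent -/

section Resolvent

variable {k : Type u} {F : Type v} [Field k] [Field F] [Algebra k F] [IsAlgClosed k]

/-- The equation `X ^ q = X` has `q` solutions in an algebraically closed field of
characteristic `p ∣ q`. -/
theorem card_roots_pow_sub (p : ℕ) [CharP k p] {q : ℕ} (hpq : p ∣ q) (hq : 1 < q) :
    ((X ^ q - X : k[X]).roots.toFinset).card = q := by
  have hsep : (X ^ q - X : k[X]).Separable := galois_poly_separable p q hpq
  rw [Multiset.toFinset_card_of_nodup (nodup_roots hsep), IsAlgClosed.card_roots_eq_natDegree,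
    FiniteField.X_pow_card_sub_X_natDegree_eq k hq]

/-- **The resolvent is not identically zero**: for `b 0 = 1` there is `θ` with
`θ ^ (Q ^ n) = θ` and `∑_{i<n} b i θ ^ (Q ^ i) ≠ 0`. -/
theorem exists_resolvent_ne_zero (p : ℕ) [CharP k p] {Q n : ℕ} (hQ : 2 ≤ Q) (hpQ : p ∣ Q)
    (hn : 0 < n) (b : ℕ → F) (hb0 : b 0 = 1) :
    ∃ θ : k, θ ^ (Q ^ n) = θ ∧
      ∑ i ∈ Finset.range n, b i * algebraMap k F (θ ^ (Q ^ i)) ≠ 0 := by
  set P : F[X] := ∑ i ∈ Finset.range n, C (b i) * X ^ (Q ^ i) with hPdef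
  have heval : ∀ θ : k, eval (algebraMap k F θ) P =
      ∑ i ∈ Finset.range n, b i * algebraMap k F (θ ^ (Q ^ i)) := by
    intro θ
    rw [hPdef, eval_finsetSum]
    refine Finset.sum_congr rfl fun i _ => ?_
    rw [eval_mul, eval_C, eval_pow, eval_X, map_pow]
  -- `P ≠ 0`
  have hQi : ∀ i : ℕ, Q ^ i = 1 ↔ i = 0 := by
    intro i
    constructor
    · intro h
      by_contra hi
      have h1 : Q ^ 1 ≤ Q ^ i := Nat.pow_le_pow_right (by omega) (Nat.pos_of_ne_zero hi)
      rw [pow_one] at h1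
      omega
    · rintro rfl
      exact pow_zero Q
  have hcoeff : P.coeff 1 = 1 := by
    rw [hPdef, finsetSum_coeff]
    rw [Finset.sum_eq_single 0]
    · rw [coeff_C_mul, pow_zero, pow_one, coeff_X_one, mul_one, hb0]
    · intro i _ hi
      rw [coeff_C_mul, coeff_X_pow, if_neg, mul_zero]
      intro h
      exact hi ((hQi i).1 h.symm)
    · intro h
      exact absurd (Finset.mem_range.2 hn) h
  have hP0 : P ≠ 0 := by
    intro h0
    rw [h0, coeff_zero] at hcoeff
    exact zero_ne_one hcoeff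
  -- degree
  have hdeg : P.natDegree ≤ Q ^ (n - 1) := by
    rw [hPdef]
    refine natDegree_sum_le_of_forall_le _ _ fun i hi => ?_
    refine (natDegree_C_mul_X_pow_le (b i) (Q ^ i)).trans ?_
    exact Nat.pow_le_pow_right (by omega) (by have := Finset.mem_range.1 hi; omega)
  -- counting
  by_contra hcon
  push Not at hcon
  set E : Finset k := (X ^ (Q ^ n) - X : k[X]).roots.toFinset with hE
  have hqn : 1 < Q ^ n := by
    calc 1 < Q := by omega
      _ = Q ^ 1 := (pow_one Q).symm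
      _ ≤ Q ^ n := Nat.pow_le_pow_right (by omega) hn
  have hpoly : (X ^ (Q ^ n) - X : k[X]) ≠ 0 := by
    intro h0
    have := FiniteField.X_pow_card_sub_X_natDegree_eq k hqn
    rw [h0, natDegree_zero] at this
    omega
  have hEcard : E.card = Q ^ n :=
    card_roots_pow_sub p (dvd_pow hpQ (by omega)) hqn
  have hEmem : ∀ θ ∈ E, θ ^ (Q ^ n) = θ := by
    intro θ hθ
    rw [hE, Multiset.mem_toFinset, mem_roots hpoly, IsRoot.def, eval_sub, eval_pow, eval_X,
      sub_eq_zero] at hθ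
    exact hθ
  set Z : Finset F := E.image (algebraMap k F) with hZ
  have hZcard : Z.card = Q ^ n := by
    rw [hZ, Finset.card_image_of_injective _ (algebraMap k F).injective, hEcard]
  have hsub : Z.val ⊆ P.roots := by
    intro z hz
    rw [Finset.mem_val, hZ, Finset.mem_image] at hz
    obtain ⟨θ, hθ, rfl⟩ := hz
    rw [mem_roots hP0, IsRoot.def, heval]
    exact hcon θ (hEmem θ hθ)
  have h1 := card_le_degree_of_subset_roots hsub
  rw [hZcard] at h1
  have h2 : Q ^ (n - 1) < Q ^ n := Nat.pow_lt_pow_right (by omega) (by omega)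
  omega

end Resolvent

/-! ### H90A -/

section H90A

variable {k : Type u} {F : Type v} [Field k] [Field F] [Algebra k F] [IsAlgClosed k]
  {p Q : ℕ} {φ : SemilinearAut k F}

omit [IsAlgClosed k] in
/-- The order of `φ ^ i • f` when `div f = φ D - D`. -/
theorem ord_pow_smul_of_div (D : Divisor k F) {f : F}
    (hf : ∀ v : Place k F, (φ • D - D) v = v.ord f) (i : ℕ) (v : Place k F) :
    v.ord ((φ ^ i) • f) = D ((φ ^ (i + 1))⁻¹ • v) - D ((φ ^ i)⁻¹ • v) := by
  have h1 := SemilinearAut.ord_smul (φ ^ i) ((φ ^ i)⁻¹ • v) f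
  rw [smul_inv_smul] at h1
  rw [h1, ← hf, Finsupp.sub_apply, SemilinearAut.divisor_smul_apply, smul_smul, ← mul_inv_rev,
    ← pow_succ]

/-- **H90A**. -/
theorem h90A (H : FFHyp k F) (hp : p.Prime) [CharP k p] (hφ : IsFrob p Q φ) (D : Divisor k F)
    (hD : φ • D - D ∈ Divisor.principal (K := k) (F := F)) :
    ∃ D₁ : Divisor k F, φ • D₁ = D₁ ∧ D₁ - D ∈ Divisor.principal (K := k) (F := F) := by
  obtain ⟨f, hf0, hf⟩ := hD
  obtain ⟨n, hn, hnD⟩ := exists_pow_smul_divisor_eq H.principal hφ D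
  have hQ := two_le_Q hp hφ
  have hpQ : p ∣ Q := by
    obtain ⟨a, ha, rfl⟩ := hφ.pow
    exact dvd_pow_self p (by omega)
  -- the norm of `f` is a constant
  have hfi : ∀ i : ℕ, (φ ^ i) • f ≠ 0 := fun i => smul_ne_zero' _ hf0
  have hN0 : ∏ i ∈ Finset.range n, (φ ^ i) • f ≠ 0 :=
    Finset.prod_ne_zero_iff.mpr fun i _ => hfi i
  have hNord : ∀ v : Place k F, v.ord (∏ i ∈ Finset.range n, (φ ^ i) • f) = 0 := by
    intro v
    rw [ord_finprod v _ _ fun i _ => hfi i]
    rw [Finset.sum_congr rfl fun i _ => ord_pow_smul_of_div D hf i v]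
    rw [Finset.sum_range_sub (fun i => D ((φ ^ i)⁻¹ • v)) n, pow_zero, inv_one, one_smul,
      ← SemilinearAut.divisor_smul_apply, hnD, sub_self]
  obtain ⟨a, ha⟩ := H.const_of_regular fun v => (hNord v).ge
  have ha0 : a ≠ 0 := by
    rintro rfl
    rw [map_zero] at ha
    exact hN0 ha
  -- the scale
  set M : ℕ := ∑ i ∈ Finset.range n, Q ^ i with hM
  have hMpos : 0 < M := by
    rw [hM]
    refine Finset.sum_pos (fun i _ => Nat.pos_of_ne_zero (pow_ne_zero i (by omega))) ?_
    exact ⟨0, Finset.mem_range.2 hn⟩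
  obtain ⟨c, hc⟩ := IsAlgClosed.exists_pow_nat_eq a⁻¹ hMpos
  have hc0 : c ≠ 0 := by
    rintro rfl
    rw [zero_pow hMpos.ne'] at hc
    exact inv_ne_zero ha0 hc.symm
  set f' : F := algebraMap k F c * f with hf'
  have hf'0 : f' ≠ 0 :=
    mul_ne_zero ((map_ne_zero_iff _ (algebraMap k F).injective).mpr hc0) hf0
  have hf'ord : ∀ v : Place k F, v.ord f' = v.ord f := fun v => ord_algebraMap_mul v hc0 f
  have hf'i : ∀ i : ℕ, (φ ^ i) • f' = algebraMap k F (c ^ (Q ^ i)) * (φ ^ i) • f := by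
    intro i
    rw [hf', smul_mul', smul_pow_algebraMap hφ]
  -- the partial norms
  set b : ℕ → F := fun i => ∏ j ∈ Finset.range i, (φ ^ j) • f' with hb
  have hb0 : b 0 = 1 := by
    rw [hb]
    exact Finset.prod_range_zero _
  have hbn : b n = 1 := by
    show ∏ j ∈ Finset.range n, (φ ^ j) • f' = 1
    rw [Finset.prod_congr rfl fun i _ => hf'i i, Finset.prod_mul_distrib, ha, ← map_prod,
      Finset.prod_pow_eq_pow_sum, ← hM, hc, ← map_mul, inv_mul_cancel₀ ha0, map_one]
  have hbstep : ∀ i : ℕ, f' * φ • (b i) = b (i + 1) := by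
    intro i
    show f' * φ • (∏ j ∈ Finset.range i, (φ ^ j) • f') = ∏ j ∈ Finset.range (i + 1), (φ ^ j) • f'
    rw [Finset.prod_range_succ', pow_zero, one_smul, mul_comm]
    congr 1
    rw [SemilinearAut.smul_def, map_prod]
    refine Finset.prod_congr rfl fun j _ => ?_
    rw [← SemilinearAut.smul_def, smul_smul, ← pow_succ']
  -- the resolvent
  obtain ⟨θ, hθ, hh0⟩ := exists_resolvent_ne_zero (k := k) (F := F) p hQ hpQ hn b hb0
  set g : ℕ → F := fun i => b i * algebraMap k F (θ ^ (Q ^ i)) with hg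
  set h : F := ∑ i ∈ Finset.range n, g i with hh
  have hgstep : ∀ i : ℕ, f' * φ • (g i) = g (i + 1) := by
    intro i
    show f' * φ • (b i * algebraMap k F (θ ^ (Q ^ i))) =
      b (i + 1) * algebraMap k F (θ ^ (Q ^ (i + 1)))
    rw [smul_mul', ← mul_assoc, hbstep i, SemilinearAut.smul_algebraMap, hφ.base, ← pow_mul,
      ← pow_succ]
  have hgn : g n = g 0 := by
    show b n * algebraMap k F (θ ^ (Q ^ n)) = b 0 * algebraMap k F (θ ^ (Q ^ 0))
    rw [hbn, hb0, hθ, pow_zero, pow_one]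
  have hkey : f' * φ • h = h := by
    rw [hh, Finset.smul_sum, Finset.mul_sum, Finset.sum_congr rfl fun i _ => hgstep i]
    have e1 := Finset.sum_range_succ' g n
    have e2 := Finset.sum_range_succ g n
    rw [e2, hgn] at e1
    exact (add_right_cancel e1).symm
  -- the divisor
  obtain ⟨Dh, hDh, -⟩ := H.principal.exists_divisor h hh0
  refine ⟨D + Dh, ?_, ⟨h, hh0, fun v => by rw [add_sub_cancel_left, hDh v]⟩⟩
  ext v
  have h1 : (φ • D) v = D v + v.ord f' := by
    rw [hf'ord v, ← hf v, Finsupp.sub_apply]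
    ring
  have h2 : (φ • Dh) v = v.ord (φ • h) := by
    rw [SemilinearAut.divisor_smul_apply, hDh]
    have := SemilinearAut.ord_smul φ (φ⁻¹ • v) h
    rw [smul_inv_smul] at this
    exact this.symm
  have h3 : v.ord f' + v.ord (φ • h) = v.ord h := by
    rw [← v.ord_mul hf'0 (smul_ne_zero' φ hh0), hkey]
  rw [smul_add, Finsupp.add_apply, Finsupp.add_apply, h1, h2, hDh v]
  omega

end H90A

/-- Leaf **H90A**. -/
theorem stmt_H90A : Stmt_H90A.{u, v} := by
  intro k F _ _ _ _ p _ hp H Q φ hφ D hD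
  exact h90A H hp hφ D hD

/-- Leaf **H90B**. -/
theorem stmt_H90B : Stmt_H90B.{u, v} := by
  intro k F _ _ _ _ p _ hp H Q φ hφ f hf hord
  exact h90B H hp hφ hf hord

end Fermat.Agent.S27.CharP.H38
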