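import Mathlib
import Fermat.Agent.Lib.LangSemilinear

/-!
# S27, characteristic-`p` half, leaf DESC-L (helper52): the full Lang lemma

`k` algebraically closed of characteristic `p`, `q = p ^ m` (`m > 0`), `V` a finite dimensional
`k`-vector space, `Φ : V →+ V` injective and `q`-semilinear.  Then

* `span_fixed_eq_top` : the fixed vectors of `Φ` span `V`;
* `exists_fixed_basis` : `V` has a basis of fixed vectors;
* `card_fixed` : `Nat.card {v // Φ v = v} = q ^ finrank k V`.
-/

set_option autoImplicit false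
set_option linter.style.haveILetI false
set_option linter.unusedSectionVars false

noncomputable section

open Polynomial

namespace Fermat.Agent.S27.CharP.H52

variable {k : Type*} [Field k] [IsAlgClosed k]

/-- Artin-Schreier equations are solvable. -/
theorem exists_artinSchreier {q : ℕ} (hq : 2 ≤ q) (c : k) : ∃ t : k, t ^ q - t = c := by
  have hdeg : (X ^ q - X - C c : k[X]).degree ≠ 0 := by
    have h1 : (X ^ q - X - C c : k[X]) = X ^ q - (X + C c) := by ring
    have h2 : (X + C c : k[X]).degree < (X ^ q : k[X]).degree := by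
      rw [degree_X_pow, degree_X_add_C]
      exact_mod_cast hq
    rw [h1, degree_sub_eq_left_of_degree_lt h2, degree_X_pow]
    exact_mod_cast (by omega : q ≠ 0)
  obtain ⟨t, ht⟩ := IsAlgClosed.exists_root _ hdeg
  refine ⟨t, ?_⟩
  rw [IsRoot.def, eval_sub, eval_sub, eval_pow, eval_X, eval_C, sub_eq_zero] at ht
  exact ht

section Span

variable {V : Type*} [AddCommGroup V] [Module k V] {q : ℕ} (Φ : V →+ V)

/-- The span of the fixed vectors. -/
def fixSpan (Φ : V →+ V) : Submodule k V := Submodule.span k {v : V | Φ v = v}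

theorem map_mem_fixSpan (hΦ : ∀ (c : k) (v : V), Φ (c • v) = c ^ q • Φ v) {x : V}
    (hx : x ∈ fixSpan (k := k) Φ) : Φ x ∈ fixSpan (k := k) Φ := by
  unfold fixSpan at hx ⊢
  induction hx using Submodule.span_induction with
  | mem v hv =>
    have hv' : Φ v = v := hv
    rw [hv']
    exact Submodule.subset_span hv
  | zero => rw [map_zero]; exact Submodule.zero_mem _
  | add x y _ _ ihx ihy => rw [map_add]; exact Submodule.add_mem _ ihx ihy
  | smul a x _ ih => rw [hΦ]; exact Submodule.smul_mem _ _ ih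

/-- Every element of the span is the image of an element of the span. -/
theorem exists_map_eq (hq : 0 < q) (hΦ : ∀ (c : k) (v : V), Φ (c • v) = c ^ q • Φ v) {x : V}
    (hx : x ∈ fixSpan (k := k) Φ) : ∃ y ∈ fixSpan (k := k) Φ, Φ y = x := by
  unfold fixSpan at hx ⊢
  induction hx using Submodule.span_induction with
  | mem v hv => exact ⟨v, Submodule.subset_span hv, hv⟩
  | zero => exact ⟨0, Submodule.zero_mem _, map_zero Φ⟩
  | add x y _ _ ihx ihy =>
    obtain ⟨x', hx', rfl⟩ := ihx
    obtain ⟨y', hy', rfl⟩ := ihy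
    exact ⟨x' + y', Submodule.add_mem _ hx' hy', map_add Φ x' y'⟩
  | smul a x _ ih =>
    obtain ⟨x', hx', rfl⟩ := ih
    obtain ⟨b, hb⟩ := IsAlgClosed.exists_pow_nat_eq a hq
    exact ⟨b • x', Submodule.smul_mem _ _ hx', by rw [hΦ, hb]⟩

theorem mem_fixSpan_of_map_mem (hq : 0 < q) (hΦ : ∀ (c : k) (v : V), Φ (c • v) = c ^ q • Φ v)
    (hinj : Function.Injective Φ) {x : V} (hx : Φ x ∈ fixSpan (k := k) Φ) :
    x ∈ fixSpan (k := k) Φ := by
  obtain ⟨y, hy, hxy⟩ := exists_map_eq Φ hq hΦ hx
  rwa [← hinj hxy]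

/-- Artin-Schreier on the span: `Φ z - z = y` is solvable in the span. -/
theorem exists_sub_eq (hq : 2 ≤ q) (hΦ : ∀ (c : k) (v : V), Φ (c • v) = c ^ q • Φ v) {y : V}
    (hy : y ∈ fixSpan (k := k) Φ) : ∃ z ∈ fixSpan (k := k) Φ, Φ z - z = y := by
  have key : ∀ c : k, ∃ z ∈ fixSpan (k := k) Φ, Φ z - z = c • y := by
    unfold fixSpan at hy ⊢
    induction hy using Submodule.span_induction with
    | mem v hv =>
      intro c
      have hv' : Φ v = v := hv
      obtain ⟨t, ht⟩ := exists_artinSchreier hq c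
      refine ⟨t • v, Submodule.smul_mem _ _ (Submodule.subset_span hv), ?_⟩
      rw [hΦ, hv', ← sub_smul, ht]
    | zero =>
      intro c
      exact ⟨0, Submodule.zero_mem _, by rw [map_zero, sub_zero, smul_zero]⟩
    | add x y _ _ ihx ihy =>
      intro c
      obtain ⟨zx, hzx, ex⟩ := ihx c
      obtain ⟨zy, hzy, ey⟩ := ihy c
      refine ⟨zx + zy, Submodule.add_mem _ hzx hzy, ?_⟩
      rw [map_add, smul_add, ← ex, ← ey]
      abel
    | smul a x _ ih =>
      intro c
      obtain ⟨z, hz, e⟩ := ih (c * a)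
      exact ⟨z, hz, by rw [e, mul_smul]⟩
  obtain ⟨z, hz, e⟩ := key 1
  exact ⟨z, hz, by rw [e, one_smul]⟩

end Span

section Main

variable (p : ℕ) [Fact p.Prime] [CharP k p] (m : ℕ)
  {V : Type*} [AddCommGroup V] [Module k V] [FiniteDimensional k V] (Φ : V →+ V)

/-- `Φ` as a semilinear map. -/
def toSemilinear (hΦ : ∀ (c : k) (v : V), Φ (c • v) = c ^ (p ^ m) • Φ v) :
    V →ₛₗ[iterateFrobenius k p m] V where
  toFun := Φ
  map_add' := map_add Φ
  map_smul' c v := by rw [iterateFrobenius_def]; exact hΦ c v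

theorem two_le_pow (hm : 0 < m) : 2 ≤ p ^ m := by
  have hp2 : 2 ≤ p := (Fact.out : p.Prime).two_le
  calc 2 ≤ p := hp2
    _ = p ^ 1 := (pow_one p).symm
    _ ≤ p ^ m := Nat.pow_le_pow_right (by omega) hm

/-- **The fixed vectors span `V`.** -/
theorem span_fixed_eq_top (hm : 0 < m)
    (hΦ : ∀ (c : k) (v : V), Φ (c • v) = c ^ (p ^ m) • Φ v) (hinj : Function.Injective Φ) :
    Submodule.span k {v : V | Φ v = v} = ⊤ := by
  have hq2 := two_le_pow p m hm
  have hq0 : 0 < p ^ m := by omega
  set W : Submodule k V := fixSpan (k := k) Φ with hW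
  show W = ⊤
  by_contra hne
  -- the quotient is nontrivial
  haveI : Nontrivial (V ⧸ W) := Submodule.Quotient.nontrivial_iff.mpr hne
  -- the induced map
  set Ψ : V ⧸ W →ₛₗ[iterateFrobenius k p m] V ⧸ W :=
    W.mapQ W (toSemilinear p m Φ hΦ) (fun x hx => map_mem_fixSpan Φ hΦ hx) with hΨ
  have hΨmk : ∀ x : V, Ψ (Submodule.Quotient.mk x) = Submodule.Quotient.mk (Φ x) :=
    fun x => rfl
  have hΨinj : Function.Injective Ψ.toAddMonoidHom := by
    rw [injective_iff_map_eq_zero]
    intro x hx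
    obtain ⟨x, rfl⟩ := Submodule.Quotient.mk_surjective W x
    have hx' : Ψ (Submodule.Quotient.mk x) = 0 := hx
    rw [hΨmk, Submodule.Quotient.mk_eq_zero] at hx'
    rw [Submodule.Quotient.mk_eq_zero]
    exact mem_fixSpan_of_map_mem Φ hq0 hΦ hinj hx'
  obtain ⟨w, hw0, hw⟩ := Fermat.Agent.Lib.LangSemilinear.exists_fixed_of_frobSemilinear k p m hm
    (V ⧸ W) Ψ.toAddMonoidHom (fun c v => by
      show Ψ (c • v) = c ^ (p ^ m) • Ψ v
      rw [map_smulₛₗ, iterateFrobenius_def]) hΨinj
  obtain ⟨w, rfl⟩ := Submodule.Quotient.mk_surjective W w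
  have hw' : Ψ (Submodule.Quotient.mk w) = Submodule.Quotient.mk w := hw
  rw [hΨmk, ← sub_eq_zero, ← Submodule.Quotient.mk_sub, Submodule.Quotient.mk_eq_zero] at hw'
  obtain ⟨z, hz, e⟩ := exists_sub_eq Φ hq2 hΦ (Submodule.neg_mem _ hw')
  have hfix : Φ (w + z) = w + z := by
    have : Φ (w + z) - (w + z) = 0 := by
      rw [map_add]
      have : Φ w + Φ z - (w + z) = (Φ w - w) + (Φ z - z) := by abel
      rw [this, e]
      abel
    exact sub_eq_zero.mp this
  have hwz : w + z ∈ W := Submodule.subset_span hfix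
  apply hw0
  rw [Submodule.Quotient.mk_eq_zero]
  have : w = (w + z) - z := by abel
  rw [this]
  exact Submodule.sub_mem _ hwz hz

/-- **`V` has a basis of fixed vectors.** -/
theorem exists_fixed_basis (hm : 0 < m)
    (hΦ : ∀ (c : k) (v : V), Φ (c • v) = c ^ (p ^ m) • Φ v) (hinj : Function.Injective Φ) :
    ∃ (b : Set V) (e : Module.Basis b k V), (∀ i : b, e i = (i : V)) ∧ ∀ i : b, Φ (i : V) = i := by
  obtain ⟨b, hb, hspan, hli⟩ := exists_linearIndependent k {v : V | Φ v = v}
  rw [span_fixed_eq_top p m Φ hm hΦ hinj] at hspan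
  have hsp : ⊤ ≤ Submodule.span k (Set.range (Subtype.val : b → V)) := by
    rw [Subtype.range_coe, hspan]
  refine ⟨b, Module.Basis.mk hli hsp, fun i => ?_, fun i => hb i.2⟩
  rw [Module.Basis.mk_apply]

/-- The number of solutions of `a ^ q = a`. -/
theorem card_pow_eq_self (hm : 0 < m) : Nat.card {a : k // a ^ (p ^ m) = a} = p ^ m := by
  have hp1 : 1 < p := (Fact.out : p.Prime).one_lt
  have hdeg : (X ^ p ^ m - X : k[X]).natDegree = p ^ m :=
    FiniteField.X_pow_card_pow_sub_X_natDegree_eq k hm.ne' hp1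
  have hne : (X ^ p ^ m - X : k[X]) ≠ 0 := by
    intro h0
    rw [h0, natDegree_zero] at hdeg
    have := two_le_pow p m hm
    omega
  have hsep : (X ^ p ^ m - X : k[X]).Separable :=
    galois_poly_separable p (p ^ m) (dvd_pow_self p hm.ne')
  have hcard := card_rootSet_eq_natDegree (K := k) hsep (IsAlgClosed.splits _)
  rw [hdeg, ← Nat.card_eq_fintype_card] at hcard
  refine Eq.trans (Nat.card_congr (Equiv.subtypeEquivRight fun a => ?_)) hcard
  rw [mem_rootSet_of_ne hne, map_sub, map_pow, aeval_X, sub_eq_zero]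

/-- **The number of fixed vectors is `q ^ dim V`.** -/
theorem card_fixed (hm : 0 < m)
    (hΦ : ∀ (c : k) (v : V), Φ (c • v) = c ^ (p ^ m) • Φ v) (hinj : Function.Injective Φ) :
    Nat.card {v : V // Φ v = v} = (p ^ m) ^ Module.finrank k V := by
  obtain ⟨b, e, he, hfix⟩ := exists_fixed_basis p m Φ hm hΦ hinj
  haveI : Finite b := Module.Finite.finite_basis e
  haveI : Fintype b := Fintype.ofFinite b
  -- the coordinates of `Φ v`
  have hrepr : ∀ (v : V) (i : b), e.equivFun (Φ v) i = (e.equivFun v i) ^ (p ^ m) := by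
    intro v i
    have hv : v = ∑ j, e.equivFun v j • e j := (e.sum_equivFun v).symm
    have h1 : Φ v = ∑ j, (e.equivFun v j) ^ (p ^ m) • e j := by
      conv_lhs => rw [hv]
      rw [map_sum]
      refine Finset.sum_congr rfl fun j _ => ?_
      rw [hΦ, he j, hfix j]
    rw [h1, map_sum, Finset.sum_apply, Finset.sum_eq_single i]
    · rw [map_smul, Pi.smul_apply, Module.Basis.equivFun_apply, Module.Basis.equivFun_apply,
        Module.Basis.repr_self, Finsupp.single_eq_same, smul_eq_mul, mul_one]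
    · intro j _ hji
      rw [map_smul, Pi.smul_apply, Module.Basis.equivFun_apply (b := e) (u := e j),
        Module.Basis.repr_self, Finsupp.single_eq_of_ne hji.symm, smul_zero]
    · intro hi
      exact absurd (Finset.mem_univ i) hi
  have hiff : ∀ v : V, Φ v = v ↔ ∀ i : b, (e.equivFun v i) ^ (p ^ m) = e.equivFun v i := by
    intro v
    constructor
    · intro h i
      rw [← hrepr, h]
    · intro h
      apply e.equivFun.injective
      funext i
      rw [hrepr, h]
  have e1 : {v : V // Φ v = v} ≃ {f : b → k // ∀ i, f i ^ (p ^ m) = f i} :=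
    Equiv.subtypeEquiv e.equivFun.toEquiv (fun v => hiff v)
  have e2 : {f : b → k // ∀ i, f i ^ (p ^ m) = f i} ≃ (b → {a : k // a ^ (p ^ m) = a}) :=
    Equiv.subtypePiEquivPi (β := fun _ => k) (p := fun _ a => a ^ (p ^ m) = a)
  rw [Nat.card_congr (e1.trans e2), Nat.card_fun, card_pow_eq_self p m hm,
    Module.finrank_eq_nat_card_basis e]

end Main

end Fermat.Agent.S27.CharP.H52
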