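import Mathlib
import Fermat.Agent.S27.CharP.Defs
import Fermat.Agent.S27.CharP.H52_LangFull
import Fermat.Agent.S27.RR.H52_Semilin

/-!
# S27, characteristic-`p` half (helper52): leaves L-INV and DESC-L

* `stmt_LInv : Stmt_LInv` : `l(φ D) = l(D)`;
* `stmt_DescL : Stmt_DescL` : `L(D)` has exactly `Q ^ l(D)` invariant elements (`φ D = D`).
-/

set_option autoImplicit false
set_option linter.style.haveILetI false
set_option linter.unusedSectionVars false

noncomputable section

open AlgebraicCurve

namespace Fermat.Agent.S27.CharP.H52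

open Fermat.Agent.RED.H17

universe u v

local notation "L" => riemannRochSpace

/-- **L-INV**. -/
theorem stmt_LInv : Stmt_LInv.{u, v} := fun _ _ _ _ _ φ D =>
  Fermat.Agent.S27.RR.H52.finrank_L_smul φ D

section

variable {k : Type u} {F : Type v} [Field k] [Field F] [Algebra k F]

/-- `φ` on `L(D)` for an invariant divisor `D`. -/
def frobL (φ : SemilinearAut k F) {D : Divisor k F} (hD : φ • D = D) : L D →+ L D where
  toFun f := ⟨φ • (f : F), by
    have := (Fermat.Agent.S27.RR.H52.smul_mem_L_smul_iff φ D (f : F)).mpr f.2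
    rwa [hD] at this⟩
  map_zero' := Subtype.ext (smul_zero φ)
  map_add' f g := Subtype.ext (smul_add φ (f : F) (g : F))

theorem frobL_coe (φ : SemilinearAut k F) {D : Divisor k F} (hD : φ • D = D) (f : L D) :
    ((frobL φ hD f : L D) : F) = φ • (f : F) := rfl

theorem frobL_injective (φ : SemilinearAut k F) {D : Divisor k F} (hD : φ • D = D) :
    Function.Injective (frobL φ hD) := by
  intro f g h
  have h1 : φ • (f : F) = φ • (g : F) := congrArg Subtype.val h
  exact Subtype.ext (MulAction.injective φ h1)

theorem frobL_smul (φ : SemilinearAut k F) {D : Divisor k F} (hD : φ • D = D) (c : k)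
    (f : L D) : frobL φ hD (c • f) = SemilinearAut.baseAut φ c • frobL φ hD f :=
  Subtype.ext (Fermat.Agent.S27.RR.H52.smul_smul_eq φ c (f : F))

end

/-- **DESC-L**. -/
theorem stmt_DescL : Stmt_DescL.{u, v} := by
  intro k F _ _ _ _ p _ hp H Q φ hφ D hD
  haveI : Fact p.Prime := ⟨hp⟩
  haveI : FiniteDimensional k (L D) := H.finite D
  obtain ⟨a, ha, rfl⟩ := hφ.pow
  have hcard := card_fixed p a (frobL φ hD) ha (fun c v => by
    rw [frobL_smul, hφ.base]) (frobL_injective φ hD)
  rw [← hcard]
  refine Nat.card_congr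
    { toFun := fun f => ⟨⟨f.1, f.2.1⟩, Subtype.ext f.2.2⟩
      invFun := fun f => ⟨f.1.1, f.1.2, congrArg Subtype.val f.2⟩
      left_inv := fun f => rfl
      right_inv := fun f => rfl }

end Fermat.Agent.S27.CharP.H52
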