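import Mathlib
import Fermat.Agent.S27.CharP.H52_DescL
import Fermat.Agent.RED.H17_Red

/-!
# S27, characteristic-`p` half (helper52): leaf CNT, the counting axiom

`cnt_of : Stmt_H90A → Stmt_H90B → Stmt_Cnt`: an invariant class `[D]` contains exactly
`(Q ^ l(D) - 1) / (Q - 1)` invariant effective divisors.
-/

set_option autoImplicit false
set_option linter.style.haveILetI false
set_option linter.unusedSectionVars false

noncomputable section

open AlgebraicCurve

namespace Fermat.Agent.S27.CharP.H52

open Fermat.Agent.RED.H17 Fermat.Agent.RED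

universe u v

local notation "L" => riemannRochSpace

/-- Removing one element from a type of cardinality `n > 0`. -/
theorem card_subtype_and_ne {α : Type*} (P : α → Prop) (a : α) (ha : P a) {n : ℕ}
    (hn : Nat.card {x : α // P x} = n) (hn0 : n ≠ 0) :
    Nat.card {x : α // P x ∧ x ≠ a} = n - 1 := by
  have h1 : ({x : α | P x} : Set α).ncard = n := by
    rw [← Nat.card_coe_set_eq]
    exact hn
  have hfin : ({x : α | P x} : Set α).Finite := Set.finite_of_ncard_ne_zero (by rw [h1]; exact hn0)
  have h2 := Set.ncard_sdiff_singleton_of_mem (s := {x : α | P x}) (a := a) ha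
  rw [h1] at h2
  rw [← h2, ← Nat.card_coe_set_eq]
  refine Nat.card_congr (Equiv.subtypeEquivRight fun x => ?_)
  rw [Set.mem_sdiff, Set.mem_singleton_iff]
  rfl

section

variable {k : Type u} {F : Type v} [Field k] [Field F] [Algebra k F]

/-- `φ (div f) = div (φ f)`. -/
theorem smul_dv (hP : HasPrincipalDivisors k F) (φ : SemilinearAut k F) (f : F) :
    φ • dv hP f = dv hP (φ • f) := by
  ext w
  rw [SemilinearAut.divisor_smul_apply, dv_apply, dv_apply]
  have h := SemilinearAut.ord_smul φ (φ⁻¹ • w) f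
  rw [smul_inv_smul] at h
  exact h.symm

theorem dv_smul_const (hP : HasPrincipalDivisors k F) {a : k} (ha : a ≠ 0) (f : F) :
    dv hP (a • f) = dv hP f := by
  ext w
  rw [dv_apply, dv_apply, Algebra.smul_def, ord_algebraMap_mul w ha]

theorem add_dv_nonneg (hP : HasPrincipalDivisors k F) {D : Divisor k F} {f : F}
    (hf : f ∈ L D) (hf0 : f ≠ 0) : 0 ≤ D + dv hP f := by
  rw [Finsupp.le_def]
  intro v
  have := ord_ge_of_mem_L hf hf0 v
  rw [Finsupp.add_apply, dv_apply]
  simp only [Finsupp.coe_zero, Pi.zero_apply]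
  omega

theorem mem_L_of_add_dv_nonneg (hP : HasPrincipalDivisors k F) {D : Divisor k F} {f : F}
    (h : 0 ≤ D + dv hP f) : f ∈ L D := by
  rw [mem_L_iff_ord]
  intro v
  right
  have := Finsupp.le_def.mp h v
  rw [Finsupp.add_apply, dv_apply] at this
  simp only [Finsupp.coe_zero, Pi.zero_apply] at this
  omega

/-- Two functions with the same divisor differ by a constant. -/
theorem exists_const_of_dv_eq (H : FFHyp k F) {f f₀ : F} (hf : f ≠ 0) (hf₀ : f₀ ≠ 0)
    (h : dv H.principal f = dv H.principal f₀) : ∃ a : k, a ≠ 0 ∧ f = a • f₀ := by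
  have hreg : ∀ v : Place k F, 0 ≤ v.ord (f / f₀) := by
    intro v
    have := DFunLike.congr_fun h v
    rw [dv_apply, dv_apply] at this
    rw [H17.ord_div v hf hf₀, this, sub_self]
  obtain ⟨a, ha⟩ := H.const_of_regular hreg
  have ha0 : a ≠ 0 := by
    rintro rfl
    rw [map_zero] at ha
    exact div_ne_zero hf hf₀ ha
  refine ⟨a, ha0, ?_⟩
  rw [Algebra.smul_def, ← ha, div_mul_cancel₀ _ hf₀]

end

/-- The number of nonzero solutions of `a ^ Q = a`. -/
theorem card_units_fix {k : Type u} [Field k] [IsAlgClosed k] (p : ℕ) [Fact p.Prime]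
    [CharP k p] (m : ℕ) (hm : 0 < m) :
    Nat.card {a : k // a ^ (p ^ m) = a ∧ a ≠ 0} = p ^ m - 1 := by
  have hp : 0 < p ^ m := Nat.pos_of_ne_zero (pow_ne_zero _ (Fact.out : p.Prime).ne_zero)
  exact card_subtype_and_ne (fun a : k => a ^ (p ^ m) = a) 0 (zero_pow hp.ne')
    (card_pow_eq_self p m hm) hp.ne'

/-- **CNT for an invariant divisor.** -/
theorem cnt_inv (h90b : Stmt_H90B.{u, v}) (k : Type u) (F : Type v) [Field k] [Field F]
    [Algebra k F] [IsAlgClosed k] (p : ℕ) [CharP k p] (hp : p.Prime) (H : FFHyp k F) (Q : ℕ)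
    (φ : SemilinearAut k F) (hφ : IsFrob p Q φ) (D : Divisor k F) (hD : φ • D = D) :
    Nat.card {E : Divisor k F // 0 ≤ E ∧ φ • E = E ∧
        E - D ∈ Divisor.principal (K := k) (F := F)} * (Q - 1)
      = Q ^ Module.finrank k (L D) - 1 := by
  classical
  haveI : Fact p.Prime := ⟨hp⟩
  have hP := H.principal
  obtain ⟨m, hm, hQ⟩ := hφ.pow
  -- the three sets
  set X := {E : Divisor k F // 0 ≤ E ∧ φ • E = E ∧
    E - D ∈ Divisor.principal (K := k) (F := F)} with hX
  set U := {a : k // a ^ Q = a ∧ a ≠ 0} with hU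
  set Y := {f : F // (f ∈ L D ∧ φ • f = f) ∧ f ≠ 0} with hY
  have hcardU : Nat.card U = Q - 1 := by
    rw [hU, hQ]
    exact card_units_fix p m hm
  have hcardY : Nat.card Y = Q ^ Module.finrank k (L D) - 1 := by
    have h1 := stmt_DescL k F p hp H Q φ hφ D hD
    have hQ0 : Q ≠ 0 := by
      rw [hQ]
      exact pow_ne_zero _ hp.ne_zero
    exact card_subtype_and_ne (fun f : F => f ∈ L D ∧ φ • f = f) 0
      ⟨Submodule.zero_mem _, smul_zero φ⟩ h1 (pow_ne_zero _ hQ0)
  -- every invariant effective divisor of the class comes from an invariant function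
  have hsurj : ∀ E : X, ∃ f : Y, D + dv hP (f : F) = (E : Divisor k F) := by
    rintro ⟨E, hE0, hEφ, f, hf0, hf⟩
    have hdv : dv hP f = E - D := by
      ext w
      rw [dv_apply, hf w]
    have hinv : ∀ v : Place k F, v.ord (φ • f) = v.ord f := by
      intro v
      have h1 : dv hP (φ • f) = dv hP f := by
        rw [← smul_dv, hdv, smul_sub, hEφ, hD]
      have := DFunLike.congr_fun h1 v
      rwa [dv_apply, dv_apply] at this
    obtain ⟨c, hc0, hc⟩ := h90b k F p hp H Q φ hφ f hf0 hinv
    have hcf0 : algebraMap k F c * f ≠ 0 :=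
      mul_ne_zero ((map_ne_zero_iff _ (algebraMap k F).injective).mpr hc0) hf0
    have hdv' : dv hP (algebraMap k F c * f) = E - D := by
      rw [← Algebra.smul_def, dv_smul_const hP hc0, hdv]
    have hE : D + dv hP (algebraMap k F c * f) = E := by rw [hdv']; abel
    refine ⟨⟨algebraMap k F c * f, ⟨mem_L_of_add_dv_nonneg hP ?_, hc⟩, hcf0⟩, hE⟩
    rw [hE]
    exact hE0
  choose pick hpick using hsurj
  -- the bijection
  have hbase : ∀ a : k, φ • (algebraMap k F a) = algebraMap k F (a ^ Q) := by
    intro a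
    rw [SemilinearAut.smul_algebraMap, hφ.base]
  let Ψ : X × U → Y := fun x =>
    ⟨(x.2 : k) • ((pick x.1 : Y) : F),
      ⟨⟨Submodule.smul_mem _ _ (pick x.1).2.1.1, by
        rw [Algebra.smul_def, smul_mul', hbase, x.2.2.1, (pick x.1).2.1.2]⟩,
      smul_ne_zero x.2.2.2 (pick x.1).2.2⟩⟩
  have hΨ : Function.Bijective Ψ := by
    constructor
    · rintro ⟨E, a⟩ ⟨E', a'⟩ h
      have h1 : (a : k) • ((pick E : Y) : F) = (a' : k) • ((pick E' : Y) : F) :=
        congrArg Subtype.val h
      have h2 : (E : Divisor k F) = E' := by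
        rw [← hpick E, ← hpick E', ← dv_smul_const hP a.2.2 (pick E : F),
          ← dv_smul_const hP a'.2.2 (pick E' : F), h1]
      have hE : E = E' := Subtype.ext h2
      subst hE
      have h3 : (a : k) = a' := by
        have h4 : ((a : k) - a') • ((pick E : Y) : F) = 0 := by rw [sub_smul, h1, sub_self]
        rcases smul_eq_zero.mp h4 with h5 | h5
        · exact sub_eq_zero.mp h5
        · exact absurd h5 (pick E).2.2
      rw [Subtype.ext h3]
    · rintro ⟨f, ⟨hfL, hfφ⟩, hf0⟩
      have hE0 : 0 ≤ D + dv hP f := add_dv_nonneg hP hfL hf0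
      have hEφ : φ • (D + dv hP f) = D + dv hP f := by
        rw [smul_add, hD, smul_dv, hfφ]
      have hEp : D + dv hP f - D ∈ Divisor.principal (K := k) (F := F) := by
        rw [add_sub_cancel_left]
        exact dv_mem_principal hP hf0
      set E : X := ⟨D + dv hP f, hE0, hEφ, hEp⟩ with hE
      have h1 : dv hP f = dv hP ((pick E : Y) : F) := by
        have := hpick E
        rw [hE] at this
        exact (add_left_cancel this).symm
      obtain ⟨a, ha0, ha⟩ := exists_const_of_dv_eq H hf0 (pick E).2.2 h1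
      have haQ : a ^ Q = a := by
        have h2 : φ • f = f := hfφ
        rw [ha, Algebra.smul_def, smul_mul', hbase, (pick E).2.1.2] at h2
        have h3 := mul_right_cancel₀ (pick E).2.2 h2
        exact (algebraMap k F).injective h3
      exact ⟨⟨E, ⟨a, haQ, ha0⟩⟩, Subtype.ext ha.symm⟩
  have hcard : Nat.card (X × U) = Nat.card Y := Nat.card_congr (Equiv.ofBijective Ψ hΨ)
  rw [Nat.card_prod, hcardU, hcardY] at hcard
  exact hcard

/-- **CNT** from H90A and H90B. -/
theorem cnt_of (h90a : Stmt_H90A.{u, v}) (h90b : Stmt_H90B.{u, v}) : Stmt_Cnt.{u, v} := by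
  intro k F _ _ _ _ p _ hp H Q φ hφ D hD
  obtain ⟨D₁, hD₁, hDD⟩ := h90a k F p hp H Q φ hφ D hD
  have hl : Module.finrank k (L D₁) = Module.finrank k (L D) := by
    have := Fermat.Agent.S27.RR.H52.finrank_L_add_principal H (D := D) hDD
    rwa [add_sub_cancel] at this
  rw [← hl, ← cnt_inv h90b k F p hp H Q φ hφ D₁ hD₁]
  congr 1
  refine Nat.card_congr (Equiv.subtypeEquivRight fun E => ?_)
  refine and_congr_right fun _ => and_congr_right fun _ => ?_
  constructor
  · intro h
    have := (Divisor.principal (K := k) (F := F)).sub_mem h hDD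
    rwa [sub_sub_sub_cancel_right] at this
  · intro h
    have := (Divisor.principal (K := k) (F := F)).add_mem h hDD
    rwa [sub_add_sub_cancel] at this

end Fermat.Agent.S27.CharP.H52
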