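import Fermat.Agent.S27.CharP.H41_Sys
import Fermat.Agent.S27.CharP.H38_H90
import Fermat.Agent.S27.CharP.H52_Cnt
import Fermat.Agent.S27.CharP.H52_DescL

/-!
# S27 char-p half, leaf SYS, unconditional (helper41)

`stmt_Sys : Stmt_Sys` from `sys_of`, CNT (helper52), H90A + H90B (helper38), L-INV (helper52).
-/

set_option autoImplicit false

namespace Fermat.Agent.S27.CharP.H41S

universe u v

/-- **SYS**, unconditional. -/
theorem stmt_Sys : Stmt_Sys.{u, v} :=
  sys_of (H52.cnt_of H38.stmt_H90A H38.stmt_H90B) H52.stmt_LInv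

end Fermat.Agent.S27.CharP.H41S
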