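/-
S27 char-p half, leaf COUNT-P (helper62): final assembly of the characteristic-`p` count.
`stmt_CountP_of`: FROB-EX, PHI-ORB, SYS and `Zeta.Stmt_Z_Main` give `CharP.Stmt_CountP`.
-/
import Fermat.Agent.S27.CharP.Defs

set_option autoImplicit false

noncomputable section

open AlgebraicCurve IntermediateField

namespace Fermat.Agent.S27.CharP.H62

open Fermat.Agent.RED.H17 Fermat.Agent.S27 Fermat.Agent.S27.CharP

universe u v

variable {k : Type u} {F : Type v} [Field k] [Field F] [Algebra k F]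

theorem baseAut_pow (φ : SemilinearAut k F) (m : ℕ) :
    SemilinearAut.baseAut (φ ^ m) = (SemilinearAut.baseAut φ) ^ m := by
  induction m with
  | zero => rfl
  | succ m ih => rw [pow_succ, SemilinearAut.baseAut_mul, ih, pow_succ]

theorem pow_smul_of_fixed {α : Type*} [MulAction (SemilinearAut k F) α]
    (ψ : SemilinearAut k F) {x : α} (h : ψ • x = x) (m : ℕ) : (ψ ^ m) • x = x := by
  induction m with
  | zero => rw [pow_zero, one_smul]
  | succ m ih => rw [pow_succ, mul_smul, h, ih]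

/-- the powers of a Frobenius structure are Frobenius structures -/
theorem isFrob_pow {p Q : ℕ} {φ : SemilinearAut k F} (h : IsFrob p Q φ) (m : ℕ) (hm : 0 < m) :
    IsFrob p (Q ^ m) (φ ^ m) where
  pow := by
    obtain ⟨a, ha, rfl⟩ := h.pow
    exact ⟨a * m, Nat.mul_pos ha hm, (pow_mul p a m).symm⟩
  base := by
    rw [baseAut_pow]
    have key : ∀ j : ℕ, ∀ a : k, ((SemilinearAut.baseAut φ) ^ j) a = a ^ (Q ^ j) := by
      intro j
      induction j with
      | zero => intro a; simp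
      | succ j ih =>
        intro a
        rw [pow_succ, RingAut.mul_apply, h.base, ih, ← pow_mul, pow_succ, mul_comm]
    exact key m
  orbit := fun x => by
    obtain ⟨n, hn, hx⟩ := h.orbit x
    refine ⟨n, hn, ?_⟩
    rw [← pow_mul, mul_comm, pow_mul]
    exact pow_smul_of_fixed (φ ^ n) hx m

theorem stmt_CountP_of (hFrob : Stmt_FrobEx.{u, v}) (hOrb : Stmt_PhiOrb.{u, v})
    (hSys : Stmt_Sys.{u, v}) (hMain : Zeta.Stmt_Z_Main.{v}) : Stmt_CountP.{u, v} := by
  intro k F _ _ _ _ p _ hp halg hFF H g c hg ℓ hℓ hℓp j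
  obtain ⟨Q, φ, hφ⟩ := hFrob k F p hp halg hFF
  have : Infinite k := IsAlgClosed.instInfinite
  have : Infinite (Place k F) := H.infinite_place
  obtain ⟨P⟩ : Nonempty (Place k F) := inferInstance
  obtain ⟨horb, -⟩ := hOrb k F p hp H Q φ hφ
  obtain ⟨m, hm, hP⟩ := horb P
  have hφm : IsFrob p (Q ^ m) (φ ^ m) := isFrob_pow hφ m hm
  obtain ⟨S, -, h2, h3, h4, h5⟩ := hSys k F p hp H g c hg (Q ^ m) (φ ^ m) hφm ⟨P, hP⟩
  have : Fact ℓ.Prime := ⟨hℓ⟩
  have hnd : ¬ ℓ ∣ S.Q := by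
    rw [h4]
    obtain ⟨a, -, rfl⟩ := hφ.pow
    intro h
    have h1 : ℓ ∣ p := hℓ.dvd_of_dvd_pow (hℓ.dvd_of_dvd_pow h)
    exact hℓp ((Nat.prime_dvd_prime_iff_eq hℓ hp).mp h1)
  have key := hMain (Place k F) S ℓ hnd j
  obtain ⟨φS, degS, PrS, lS, QS, gS, WS, a1, a2, a3, a4, a5, a6, a7, a8, a9, a10, a11, a12, a13⟩ := S
  simp only at h2 h3 h5
  subst h2 h3 h5
  have key' : Nat.card {x : Pic0 k F // (ℓ ^ j) • x = 0} = ℓ ^ (2 * gS * j) := key
  rw [← key']
  refine Nat.card_congr (Equiv.subtypeEquivRight fun x => ?_)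
  rw [Pic0.mem_torsion, natCast_zsmul]

end Fermat.Agent.S27.CharP.H62
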