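/-
S27 char-p half (helper62): FINAL WIRING of the characteristic-`p` count.
All leaves of NOTES/plan/S27_CHARP.md are landed except Z-LOGDER, which is the only hypothesis here:
* `stmt_Z_Main_of_logDer`  : Z-LOGDER ⟹ `Zeta.Stmt_Z_Main`;
* `stmt_CountP_of_logDer`  : Z-LOGDER ⟹ `CharP.Stmt_CountP`;
* `stmt_CountPu_of_logDer` : Z-LOGDER ⟹ `Char0.Stmt_CountPu` (the interface of helper20's half).
-/
import Fermat.Agent.S27.CharP.H62_CountP
import Fermat.Agent.S27.CharP.H41_FrobEx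
import Fermat.Agent.S27.CharP.H38_PhiOrb
import Fermat.Agent.S27.CharP.H41_SysFinal
import Fermat.Agent.S27.Zeta.H62_Main
import Fermat.Agent.S27.Zeta.H97_ZFin
import Fermat.Agent.S27.Zeta.H52_Rat
import Fermat.Agent.S27.Zeta.H8_Ext
import Fermat.Agent.S27.Zeta.H57_DivP
import Fermat.Agent.S27.Zeta.H30_Norm
import Fermat.Agent.S27.IW.H68_Main
import Fermat.Agent.S27.Char0.H20_FFH

set_option autoImplicit false

noncomputable section

open AlgebraicCurve IntermediateField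

namespace Fermat.Agent.S27.CharP.H62F

open Fermat.Agent.RED.H17 Fermat.Agent.S27 Fermat.Agent.S27.CharP

universe u v

theorem stmt_Z_Main_of_logDer (hLog : Zeta.Stmt_Z_LogDer.{v, 0}) : Zeta.Stmt_Z_Main.{v} :=
  Zeta.H62.stmt_Z_Main_of Zeta.H97.stmt_Z_Fin
    (Zeta.H8.z_ext_of (Zeta.H52.stmt_Z_Rat_of Zeta.H97.stmt_Z_Fin) hLog)
    (Zeta.H30.z_norm_of Zeta.H97.stmt_Z_Fin hLog) Zeta.H57.stmt_Z_DivP
    IW.H68.stmt_IW_Fin IW.H68.stmt_IW_Card

theorem stmt_CountP_of_logDer (hLog : Zeta.Stmt_Z_LogDer.{v, 0}) : Stmt_CountP.{u, v} :=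
  H62.stmt_CountP_of H41.stmt_FrobEx H38.stmt_PhiOrb H41S.stmt_Sys (stmt_Z_Main_of_logDer hLog)

theorem stmt_CountPu_of_logDer (hLog : Zeta.Stmt_Z_LogDer.{v, 0}) :
    Char0.Stmt_CountPu.{u, v} := by
  intro k Ft _ _ _ _ p _ hp halg hFF g c hg ℓ hℓ hℓp j
  obtain ⟨H, -⟩ := Char0.H20.stmt_FFH k Ft hFF
  exact stmt_CountP_of_logDer hLog k Ft p hp halg hFF H g c hg ℓ hℓ hℓp j

end Fermat.Agent.S27.CharP.H62F
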