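/-
S27 char-p half (helper62): THE RESULT of the half, unconditional:
`stmt_CountPu : Char0.Stmt_CountPu` — for `k` algebraically closed, algebraic over `𝔽_p`, and a
function field `Ft / k` of Riemann genus `g`: `#Pic⁰(Ft)[ℓ^j] = ℓ^(2 g j)` for every prime `ℓ ≠ p`.
Leaves: NOTES/plan/S27_CHARP.md (helpers 8, 30, 38, 41, 45, 52, 57, 63, 64, 68, 97).
-/
import Fermat.Agent.S27.CharP.H62_Final
import Fermat.Agent.S27.Zeta.H63_LogDer

set_option autoImplicit false

namespace Fermat.Agent.S27.CharP.H62F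

open Fermat.Agent.S27

universe u v

/-- the abstract count -/
theorem stmt_Z_Main : Zeta.Stmt_Z_Main.{v} :=
  stmt_Z_Main_of_logDer Zeta.H63.stmt_Z_LogDer

/-- the count over an algebraic closure of `𝔽_p`, with `FFHyp` as hypothesis -/
theorem stmt_CountP : CharP.Stmt_CountP.{u, v} :=
  stmt_CountP_of_logDer Zeta.H63.stmt_Z_LogDer

/-- **COUNT-P**: the interface of the characteristic-0 half. -/
theorem stmt_CountPu : Char0.Stmt_CountPu.{u, v} :=
  stmt_CountPu_of_logDer Zeta.H63.stmt_Z_LogDer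

end Fermat.Agent.S27.CharP.H62F
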