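import Mathlib

/-!
# S27 char-p half, leaf FROB-EX, part A (helper41): extending a locally periodic automorphism

`E` a field with an automorphism `σ` all of whose orbits are finite, `F / E` a finite extension.
Then some power `σ ^ a` (`a > 0`) extends to an automorphism `Φ` of `F` all of whose orbits are
finite.  (Choose a basis `b` of `F / E`; a power of `σ` fixes the structure constants of `b`
and the coordinates of `1`; let `Φ` act on the coordinates.)
-/

set_option autoImplicit false
set_option linter.style.haveILetI false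

noncomputable section

namespace Fermat.Agent.S27.CharP.H41

open Module

section Coord

variable {E F : Type*} [Field E] [Field F] [Algebra E F]
  {ι : Type*} [Fintype ι] (b : Basis ι E F)

/-- The action of an automorphism of `E` on the coordinates with respect to `b`. -/
def coordMap (s : E ≃+* E) : F →+ F where
  toFun v := ∑ l, s (b.repr v l) • b l
  map_zero' := by simp
  map_add' u v := by
    simp only [map_add, Finsupp.coe_add, Pi.add_apply, add_smul, Finset.sum_add_distrib]

theorem coordMap_apply (s : E ≃+* E) (v : F) :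
    coordMap b s v = ∑ l, s (b.repr v l) • b l := rfl

theorem repr_coordMap (s : E ≃+* E) (v : F) (l : ι) :
    b.repr (coordMap b s v) l = s (b.repr v l) := by
  rw [coordMap_apply, b.repr_sum_self]

theorem coordMap_smul (s : E ≃+* E) (z : E) (v : F) :
    coordMap b s (z • v) = s z • coordMap b s v := by
  rw [coordMap_apply, coordMap_apply, Finset.smul_sum]
  refine Finset.sum_congr rfl fun l _ => ?_
  rw [map_smul, Finsupp.smul_apply, smul_eq_mul, map_mul, mul_smul]

theorem coordMap_of_fixed (s : E ≃+* E) (w : F) (h : ∀ l, s (b.repr w l) = b.repr w l) :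
    coordMap b s w = w := by
  rw [coordMap_apply]
  conv_rhs => rw [← b.sum_repr w]
  exact Finset.sum_congr rfl fun l _ => by rw [h l]

theorem coordMap_basis (s : E ≃+* E) (i : ι) : coordMap b s (b i) = b i := by
  classical
  apply coordMap_of_fixed
  intro l
  rw [b.repr_self, Finsupp.single_apply]
  split_ifs
  · exact map_one s
  · exact map_zero s

theorem coordMap_comp (s t : E ≃+* E) (v : F) :
    coordMap b s (coordMap b t v) = coordMap b (t.trans s) v := by
  rw [coordMap_apply b s, coordMap_apply b (t.trans s)]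
  refine Finset.sum_congr rfl fun l _ => ?_
  rw [repr_coordMap]
  rfl

theorem coordMap_refl (v : F) : coordMap b (RingEquiv.refl E) v = v :=
  coordMap_of_fixed b _ v fun _ => rfl

theorem coordMap_mul (s : E ≃+* E)
    (h : ∀ i j l, s (b.repr (b i * b j) l) = b.repr (b i * b j) l) (u v : F) :
    coordMap b s (u * v) = coordMap b s u * coordMap b s v := by
  have hbb : ∀ i j, coordMap b s (b i * b j) = b i * b j := fun i j =>
    coordMap_of_fixed b s _ (h i j)
  have hu : u = ∑ i, b.repr u i • b i := (b.sum_repr u).symm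
  have hv : v = ∑ j, b.repr v j • b j := (b.sum_repr v).symm
  have h1 : u * v = ∑ i, ∑ j, (b.repr u i * b.repr v j) • (b i * b j) := by
    conv_lhs => rw [hu, hv]
    rw [Finset.sum_mul_sum]
    refine Finset.sum_congr rfl fun i _ => Finset.sum_congr rfl fun j _ => ?_
    rw [smul_mul_smul_comm]
  have h2 : coordMap b s u * coordMap b s v
      = ∑ i, ∑ j, (s (b.repr u i) * s (b.repr v j)) • (b i * b j) := by
    rw [coordMap_apply, coordMap_apply, Finset.sum_mul_sum]
    refine Finset.sum_congr rfl fun i _ => Finset.sum_congr rfl fun j _ => ?_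
    rw [smul_mul_smul_comm]
  rw [h2, h1, map_sum]
  refine Finset.sum_congr rfl fun i _ => ?_
  rw [map_sum]
  refine Finset.sum_congr rfl fun j _ => ?_
  rw [coordMap_smul, hbb, map_mul]

/-- The coordinatewise action as a ring automorphism of `F`. -/
def coordEquiv (s : E ≃+* E)
    (h : ∀ i j l, s (b.repr (b i * b j) l) = b.repr (b i * b j) l) : F ≃+* F where
  toFun := coordMap b s
  invFun := coordMap b s.symm
  left_inv v := by
    rw [coordMap_comp]
    have : s.trans s.symm = RingEquiv.refl E := RingEquiv.self_trans_symm s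
    rw [this, coordMap_refl]
  right_inv v := by
    rw [coordMap_comp]
    have : s.symm.trans s = RingEquiv.refl E := RingEquiv.symm_trans_self s
    rw [this, coordMap_refl]
  map_mul' := coordMap_mul b s h
  map_add' := map_add (coordMap b s)

theorem coordEquiv_apply (s : E ≃+* E)
    (h : ∀ i j l, s (b.repr (b i * b j) l) = b.repr (b i * b j) l) (v : F) :
    coordEquiv b s h v = coordMap b s v := rfl

theorem coordEquiv_algebraMap (s : E ≃+* E)
    (h : ∀ i j l, s (b.repr (b i * b j) l) = b.repr (b i * b j) l) (z : E) :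
    coordEquiv b s h (algebraMap E F z) = algebraMap E F (s z) := by
  have h1 : coordEquiv b s h 1 = 1 := map_one _
  rw [Algebra.algebraMap_eq_smul_one, coordEquiv_apply, coordMap_smul, ← coordEquiv_apply b s h,
    h1, ← Algebra.algebraMap_eq_smul_one]

theorem repr_coordEquiv_pow (s : E ≃+* E)
    (h : ∀ i j l, s (b.repr (b i * b j) l) = b.repr (b i * b j) l) (n : ℕ) (v : F) (l : ι) :
    b.repr (((coordEquiv b s h : RingAut F) ^ n) v) l = ((s : RingAut E) ^ n) (b.repr v l) := by
  induction n with
  | zero => rfl
  | succ n ih =>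
    rw [pow_succ', pow_succ', RingAut.mul_apply, RingAut.mul_apply, coordEquiv_apply,
      repr_coordMap, ih]

end Coord

section Periodic

variable {E : Type*} [Field E]

theorem pow_mul_apply_of_fixed (σ : RingAut E) {m : ℕ} {z : E} (h : (σ ^ m) z = z) (t : ℕ) :
    (σ ^ (m * t)) z = z := by
  induction t with
  | zero => rfl
  | succ t ih =>
    rw [Nat.mul_succ, pow_add, RingAut.mul_apply, h, ih]

theorem pow_apply_of_dvd (σ : RingAut E) {m n : ℕ} {z : E} (h : (σ ^ m) z = z) (hmn : m ∣ n) :
    (σ ^ n) z = z := by
  obtain ⟨t, rfl⟩ := hmn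
  exact pow_mul_apply_of_fixed σ h t

/-- Finitely many elements with finite orbits have a common period. -/
theorem exists_common_period (σ : RingAut E)
    (hper : ∀ z : E, ∃ m : ℕ, 0 < m ∧ (σ ^ m) z = z) {κ : Type*} [Finite κ] (c : κ → E) :
    ∃ a : ℕ, 0 < a ∧ ∀ i, (σ ^ a) (c i) = c i := by
  classical
  haveI := Fintype.ofFinite κ
  choose per hper0 hper1 using hper
  refine ⟨∏ i, per (c i), Finset.prod_pos fun i _ => hper0 _, fun i => ?_⟩
  exact pow_apply_of_dvd σ (hper1 (c i)) (Finset.dvd_prod_of_mem _ (Finset.mem_univ i))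

end Periodic

section Extend

variable {E F : Type*} [Field E] [Field F] [Algebra E F] [FiniteDimensional E F]

/-- **FROB-EX, part A.**  A power of a locally periodic automorphism of `E` extends to a locally
periodic automorphism of the finite extension `F`. -/
theorem exists_periodic_extension (σ : RingAut E)
    (hper : ∀ z : E, ∃ m : ℕ, 0 < m ∧ (σ ^ m) z = z) :
    ∃ (a : ℕ) (Φ : RingAut F), 0 < a ∧
      (∀ z : E, Φ (algebraMap E F z) = algebraMap E F ((σ ^ a) z)) ∧
      ∀ y : F, ∃ n : ℕ, 0 < n ∧ (Φ ^ n) y = y := by
  classical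
  let b := Module.finBasis E F
  obtain ⟨a, ha, hfix⟩ := exists_common_period σ hper
    (fun q : Fin (finrank E F) × Fin (finrank E F) × Fin (finrank E F) =>
      b.repr (b q.1 * b q.2.1) q.2.2)
  have hsc : ∀ i j l, (σ ^ a) (b.repr (b i * b j) l) = b.repr (b i * b j) l :=
    fun i j l => hfix (i, j, l)
  refine ⟨a, coordEquiv b (σ ^ a) hsc, ha, fun z => coordEquiv_algebraMap b (σ ^ a) hsc z,
    fun y => ?_⟩
  obtain ⟨n, hn, hfixy⟩ := exists_common_period σ hper (fun l => b.repr y l)
  refine ⟨n, hn, ?_⟩
  apply b.repr.injective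
  ext l
  rw [repr_coordEquiv_pow]
  have h1 : ((σ ^ a : RingAut E) ^ n) = σ ^ (n * a) := by rw [← pow_mul, mul_comm]
  rw [h1]
  exact pow_mul_apply_of_fixed σ (hfixy l) a

end Extend

end Fermat.Agent.S27.CharP.H41
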