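import Mathlib

/-!
# S27 char-p half, leaf FROB-EX, part B (helper41): Frobenius on the coefficients of `k(X)`

`k` a perfect field of characteristic `p` all of whose elements are algebraic over `𝔽_p`
(`a ^ p ^ n = a` for some `n > 0`).  The automorphism `ratFrob` of `RatFunc k` (Frobenius on the
coefficients, `X ↦ X`) has finite orbits.
-/

set_option autoImplicit false
set_option linter.style.haveILetI false

noncomputable section

namespace Fermat.Agent.S27.CharP.H41

open Polynomial

section Period

variable {k : Type*} [Field k] {p : ℕ}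

theorem pow_p_pow_mul {a : k} {n : ℕ} (h : a ^ p ^ n = a) (t : ℕ) : a ^ p ^ (n * t) = a := by
  induction t with
  | zero => simp
  | succ t ih =>
    rw [Nat.mul_succ, pow_add, pow_mul, ih, h]

theorem pow_p_pow_of_dvd {a : k} {n m : ℕ} (h : a ^ p ^ n = a) (hnm : n ∣ m) :
    a ^ p ^ m = a := by
  obtain ⟨t, rfl⟩ := hnm
  exact pow_p_pow_mul h t

/-- Finitely many elements have a common Frobenius period. -/
theorem exists_common_frob_period (hk : ∀ a : k, ∃ n : ℕ, 0 < n ∧ a ^ p ^ n = a)
    (s : Finset k) : ∃ m : ℕ, 0 < m ∧ ∀ a ∈ s, a ^ p ^ m = a := by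
  classical
  choose per hper0 hper1 using hk
  refine ⟨∏ a ∈ s, per a, Finset.prod_pos fun a _ => hper0 a, fun a ha => ?_⟩
  exact pow_p_pow_of_dvd (hper1 a) (Finset.dvd_prod_of_mem _ ha)

end Period

section RatFrob

variable (k : Type*) [Field k] (p : ℕ) [Fact p.Prime] [CharP k p] [PerfectRing k p]

/-- Frobenius on the coefficients of rational functions. -/
def ratFrob : RingAut (RatFunc k) :=
  IsFractionRing.ringEquivOfRingEquiv (K := RatFunc k) (L := RatFunc k)
    (Polynomial.mapEquiv (frobeniusEquiv k p))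

theorem ratFrob_algebraMap (P : k[X]) :
    ratFrob k p (algebraMap k[X] (RatFunc k) P)
      = algebraMap k[X] (RatFunc k) (P.map (frobenius k p)) := by
  unfold ratFrob
  rw [IsFractionRing.ringEquivOfRingEquiv_algebraMap]
  rfl

theorem ratFrob_pow_algebraMap (m : ℕ) (P : k[X]) :
    ((ratFrob k p) ^ m) (algebraMap k[X] (RatFunc k) P)
      = algebraMap k[X] (RatFunc k) (P.map (iterateFrobenius k p m)) := by
  induction m with
  | zero =>
    have h : iterateFrobenius k p 0 = RingHom.id k := by
      ext x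
      simp
    rw [h, Polynomial.map_id]
    rfl
  | succ m ih =>
    rw [pow_succ', RingAut.mul_apply, ih, ratFrob_algebraMap, Polynomial.map_map]
    congr 2
    ext x
    simp only [RingHom.comp_apply, iterateFrobenius_def, frobenius_def]
    rw [← pow_mul, ← pow_succ]

theorem ratFrob_pow_const (m : ℕ) (a : k) :
    ((ratFrob k p) ^ m) (algebraMap k (RatFunc k) a) = algebraMap k (RatFunc k) (a ^ p ^ m) := by
  have h : ∀ c : k, algebraMap k (RatFunc k) c
      = algebraMap k[X] (RatFunc k) (Polynomial.C c) := fun c =>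
    IsScalarTower.algebraMap_apply k k[X] (RatFunc k) c
  rw [h, h, ratFrob_pow_algebraMap, Polynomial.map_C, iterateFrobenius_def]

variable {k p}

omit [PerfectRing k p] in
theorem map_iterateFrobenius_eq_self (P : k[X]) (m : ℕ)
    (h : ∀ a ∈ P.coeffs, a ^ p ^ m = a) :
    P.map (iterateFrobenius k p m) = P := by
  ext i
  rw [Polynomial.coeff_map, iterateFrobenius_def]
  by_cases hi : P.coeff i = 0
  · rw [hi, zero_pow]
    exact pow_ne_zero _ (Fact.out : p.Prime).ne_zero
  · exact h _ (Polynomial.coeff_mem_coeffs hi)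

/-- **FROB-EX, part B.**  Frobenius on the coefficients has finite orbits on `k(X)`. -/
theorem ratFrob_periodic (hk : ∀ a : k, ∃ n : ℕ, 0 < n ∧ a ^ p ^ n = a) (z : RatFunc k) :
    ∃ m : ℕ, 0 < m ∧ ((ratFrob k p) ^ m) z = z := by
  classical
  obtain ⟨P, R, -, rfl⟩ := IsFractionRing.div_surjective (A := k[X]) z
  obtain ⟨m, hm, hfix⟩ := exists_common_frob_period hk (P.coeffs ∪ R.coeffs)
  refine ⟨m, hm, ?_⟩
  rw [map_div₀, ratFrob_pow_algebraMap, ratFrob_pow_algebraMap,
    map_iterateFrobenius_eq_self P m (fun a ha => hfix a (Finset.mem_union_left _ ha)),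
    map_iterateFrobenius_eq_self R m (fun a ha => hfix a (Finset.mem_union_right _ ha))]

end RatFrob

end Fermat.Agent.S27.CharP.H41
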