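import Fermat.Agent.S27.CharP.Defs
import Fermat.Agent.S27.CharP.H41_FrobExA
import Fermat.Agent.S27.CharP.H41_FrobExB

/-!
# S27 char-p half, leaf FROB-EX (helper41): existence of a Frobenius structure

`k` algebraically closed of characteristic `p`, algebraic over `𝔽_p`; `F / k` a function field
(finite over `k(x)`, `x` transcendental).  Then `F` has a Frobenius structure: a ring
automorphism `Φ` with `Φ a = a ^ Q` on `k` (`Q = p ^ a`, `a > 0`) and finite orbits.

Proof: Frobenius on the coefficients of `k(x) ≅ RatFunc k` has finite orbits (part B); a power of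
it fixes the structure constants of a basis of `F / k(x)` and extends to `F` coordinatewise
(part A).
-/

set_option autoImplicit false
set_option linter.style.haveILetI false

noncomputable section

open AlgebraicCurve IntermediateField

namespace Fermat.Agent.S27.CharP.H41

universe u v

/-- **FROB-EX.** -/
theorem stmt_FrobEx : Stmt_FrobEx.{u, v} := by
  intro k F _ _ _ _ p _ hp hk hx
  obtain ⟨x, hx, hfin⟩ := hx
  haveI : Fact p.Prime := ⟨hp⟩
  haveI : ExpChar k p := ExpChar.prime hp
  haveI : PerfectRing k p := inferInstance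
  let e : RatFunc k ≃ₐ[k] k⟮x⟯ := RatFunc.algEquivOfTranscendental x hx
  letI a1 : Algebra (RatFunc k) k⟮x⟯ := (e : RatFunc k →+* k⟮x⟯).toAlgebra
  letI a2 : Algebra (RatFunc k) F :=
    ((algebraMap k⟮x⟯ F).comp (algebraMap (RatFunc k) k⟮x⟯)).toAlgebra
  haveI : IsScalarTower (RatFunc k) k⟮x⟯ F := IsScalarTower.of_algebraMap_eq fun _ => rfl
  haveI : Module.Finite (RatFunc k) k⟮x⟯ :=
    Module.Finite.of_surjective (Algebra.linearMap (RatFunc k) k⟮x⟯) e.surjective
  haveI : Module.Finite (RatFunc k) F := Module.Finite.trans k⟮x⟯ F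
  have hconst : ∀ c : k, algebraMap k F c
      = algebraMap (RatFunc k) F (algebraMap k (RatFunc k) c) := by
    intro c
    have h1 : algebraMap (RatFunc k) F (algebraMap k (RatFunc k) c)
        = algebraMap k⟮x⟯ F (e (algebraMap k (RatFunc k) c)) := rfl
    rw [h1, e.commutes, ← IsScalarTower.algebraMap_apply]
  obtain ⟨a, Φ, ha, hΦ, hper⟩ := exists_periodic_extension (E := RatFunc k) (F := F)
    (ratFrob k p) (ratFrob_periodic hk)
  have hmem : ((Φ, iterateFrobeniusEquiv k p a) : RingAut F × RingAut k)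
      ∈ SemilinearAut k F := by
    intro c
    show Φ (algebraMap k F c) = algebraMap k F (c ^ p ^ a)
    rw [hconst, hΦ, ratFrob_pow_const, ← hconst]
  refine ⟨p ^ a, ⟨_, hmem⟩, ⟨a, ha, rfl⟩, fun c => rfl, fun y => ?_⟩
  obtain ⟨n, hn, h⟩ := hper y
  refine ⟨n, hn, ?_⟩
  have h1 : ∀ (m : ℕ) (z : F),
      ((⟨_, hmem⟩ : SemilinearAut k F) ^ m) • z = (Φ ^ m) z := by
    intro m
    induction m with
    | zero => intro z; rfl
    | succ m ih =>
      intro z
      rw [pow_succ', mul_smul, ih, pow_succ', RingAut.mul_apply]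
      rfl
  rw [h1, h]

end Fermat.Agent.S27.CharP.H41
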