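import Fermat.Agent.S27.CharP.Defs
import Fermat.Agent.S27.CharP.H38_PhiOrb
import Fermat.Agent.S27.RR.H52_Canon

/-!
# S27 char-p half, leaf SYS (helper41): the zeta system of a Frobenius structure

`sys_of : Stmt_Cnt → Stmt_LInv → Stmt_Sys`: the places of `F / k` with a Frobenius structure `φ`
(and a fixed place) form an abstract zeta system `Zeta.ZSys`:
`φ` = the permutation of the places, `degree`, `Princ` = the prelude's, `l D = dim L(D)`,
`W` = a canonical divisor (Riemann–Roch, helper52), orbits and fixed points from PHI-ORB
(helper38), the counting axiom from CNT for the powers of `φ`.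
-/

set_option autoImplicit false
set_option linter.style.haveILetI false

noncomputable section

open AlgebraicCurve

namespace Fermat.Agent.S27.CharP.H41S

open Fermat.Agent.RED.H17 Fermat.Agent.S27 Fermat.Agent.S27.CharP

universe u v

local notation "L" => riemannRochSpace

section

variable {k : Type u} {F : Type v} [Field k] [Field F] [Algebra k F]

theorem act_toPerm (φ : SemilinearAut k F) (D : Divisor k F) :
    Zeta.act (MulAction.toPerm φ) D = φ • D := rfl

theorem toPerm_pow (φ : SemilinearAut k F) (m : ℕ) :
    (MulAction.toPerm φ : Equiv.Perm (Place k F)) ^ m = MulAction.toPerm (φ ^ m) :=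
  (map_pow (MulAction.toPermHom (SemilinearAut k F) (Place k F)) φ m).symm

theorem toPerm_pow_apply (φ : SemilinearAut k F) (m : ℕ) (P : Place k F) :
    ((MulAction.toPerm φ : Equiv.Perm (Place k F)) ^ m) P = (φ ^ m) • P := by
  rw [toPerm_pow]
  rfl

theorem act_toPerm_pow (φ : SemilinearAut k F) (m : ℕ) (D : Divisor k F) :
    Zeta.act ((MulAction.toPerm φ : Equiv.Perm (Place k F)) ^ m) D = (φ ^ m) • D := by
  rw [toPerm_pow]
  rfl

end

/-- **SYS.** -/
theorem sys_of (hCnt : Stmt_Cnt.{u, v}) (hLInv : Stmt_LInv.{u, v}) : Stmt_Sys.{u, v} := by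
  intro k F _ _ _ _ p _ hp H g c hg Q φ hφ hfix
  obtain ⟨W, hW⟩ := RR.H52.riemann_roch H hg
  obtain ⟨horb, hfin⟩ := H38.stmt_PhiOrb k F p hp H Q φ hφ
  refine ⟨{ φ := MulAction.toPerm φ
            degree := Divisor.degree
            Princ := Divisor.principal
            l := fun D => Module.finrank k (L D)
            Q := Q
            g := g
            W := W
            two_le := H38.two_le_Q hp hφ
            degree_single := ?_
            orbit := ?_
            fixfin := ?_
            fixed := hfix
            princ_deg := ?_
            princ_act := ?_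
            l_princ := ?_
            l_act := ?_
            l_neg := ?_
            l_zero := ?_
            rr := ?_
            cnt := ?_ }, rfl, rfl, rfl, rfl, rfl⟩
  · intro P n
    rw [Divisor.degree_single, H.deg_one P, Nat.cast_one, mul_one]
  · intro P
    obtain ⟨m, hm, h⟩ := horb P
    exact ⟨m, hm, by rw [toPerm_pow_apply]; exact h⟩
  · intro m hm
    have h := hfin m hm
    have e : Zeta.fixPts (MulAction.toPerm φ : Equiv.Perm (Place k F)) m
        = {P : Place k F | (φ ^ m) • P = P} := by
      ext P
      show ((MulAction.toPerm φ : Equiv.Perm (Place k F)) ^ m) P = P ↔ _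
      rw [toPerm_pow_apply]
      rfl
    rw [e]
    exact h
  · intro D hD
    exact RR.H52.degree_principal H hD
  · intro D hD
    rw [act_toPerm]
    exact SemilinearAut.smul_mem_principal φ hD
  · intro D E hE
    exact RR.H52.finrank_L_add_principal H hE
  · intro D
    rw [act_toPerm]
    exact hLInv k F φ D
  · intro D hD
    exact RR.H52.finrank_L_of_neg H hD
  · exact RR.H52.finrank_L_zero H
  · intro D
    exact hW.2.2 D
  · intro m hm D hD
    rw [act_toPerm_pow] at hD
    have h := hCnt k F p hp H (Q ^ m) (φ ^ m) (H38.isFrob_pow hφ hm) D hD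
    rw [← pow_mul] at h
    rw [← h]
    congr 1
    refine Nat.card_congr (Equiv.subtypeEquivRight fun E => ?_)
    rw [act_toPerm_pow]

end Fermat.Agent.S27.CharP.H41S
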